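/-
S36 (cluster G), block W-P, seat REG (abstract part; helper26): the LOCAL coordinate theorem.

`Lib/BadRed/PeuD/Coord.lean` (`CoordData`, helper72) needs a function `z` whose reduction has a
simple zero at EVERY node.  For the regularity statement `(REG_t)` of W-P only ONE node `i₀` is
under control (`t̄` is a uniformiser at `P`).  This file is the version localised at one node.

Abstract over a nodal seed `N` with the `u`-datum `AnnulusData N u ϖ` (K-p).  Assume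
`v(ϖ) = v(p0) ^ e`, `ε_{i₀} = ord_{s₁ i₀} red₁ u = e = ord_{s₂ i₀} red₂ (ϖ / u)`, `z ∈ O₁` without
pole at the places of type N with node `i₀`, `ord_{s₁ i₀} red₁ z = 1`, `z / p0 ∈ O₂`
(`CoordLoc`).  Then

* `CoordLoc.red₂_ne`  : `z / p0` is a unit of `O₂` (so `v₂(z) = v(p0)` exactly);
* `CoordLoc.ord_z_N`  : `z` has no zero at the places of type N with node `i₀`;
* `CoordLoc.ord₂`     : `ord_{s₂ i₀} red₂ (z / p0) = -1`  (a SIMPLE POLE at the node).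

Application (REG_t): `z = t₀ - t₁ ^ q`, `p0 = q`, `e = 12`, `u = Δ(z)/Δ(qz)`, `ϖ = q ^ 12`.
-/
import Mathlib
import Fermat.Agent.Lib.BadRed.PeuD.SlopeLoc
import Fermat.Agent.E.Desc.Kp.Ann

set_option autoImplicit false
set_option linter.unusedSectionVars false
set_option linter.unusedVariables false

noncomputable section
attribute [local instance 10000] SubalgebraClass.toAlgebra HahnSeries.powerSeriesAlgebra

open AlgebraicCurve Fermat.Agent.RR Fermat.Agent.Deuring Fermat.Agent.BadRed Fermat.Agent.EKp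
  Fermat.Agent.FF Fermat.Agent.PeuD

namespace Fermat.Agent.S36Reg

variable {K F k Fk₁ Fk₂ : Type*} [Field K] [Field F] [Algebra K F]
  [Field k] [Field Fk₁] [Algebra k Fk₁] [Field Fk₂] [Algebra k Fk₂] {ι : Type*} [Fintype ι]

/-- **the data of a coordinate at ONE node `i₀`**. -/
structure CoordLoc (N : NodalSeed K F k Fk₁ Fk₂ ι) (u : F) (ϖ p0 : K) (e : ℕ) (z : F) (i₀ : ι) :
    Prop where
  ann : AnnulusData N u ϖ
  e_pos : 0 < e
  val_varpi : N.S₁.A.valuation ϖ = N.S₁.A.valuation p0 ^ e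
  eps₁ : (N.s₁ i₀).ord (N.S₁.red u) = e
  eps₂ : (N.s₂ i₀).ord (N.S₂.red (algebraMap K F ϖ * u⁻¹)) = e
  z_mem₁ : z ∈ N.S₁.Ov
  z_mem₂ : z / algebraMap K F p0 ∈ N.S₂.Ov
  z_pole : NoPoleAtNode N i₀ z
  z_node : (N.s₁ i₀).ord (N.S₁.red z) = 1

namespace CoordLoc

variable {N : NodalSeed K F k Fk₁ Fk₂ ι} {u : F} {ϖ p0 : K} {e : ℕ} {z : F} {i₀ : ι}

theorem p0_ne (h : CoordLoc N u ϖ p0 e z i₀) : p0 ≠ 0 := by
  rintro rfl
  have h1 := h.val_varpi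
  rw [map_zero, zero_pow h.e_pos.ne'] at h1
  exact h.ann.varpi_ne ((Valuation.zero_iff _).mp h1)

theorem u_ne (h : CoordLoc N u ϖ p0 e z i₀) : u ≠ 0 :=
  N.S₁.ne_zero_of_red_ne_zero h.ann.red₁_ne

theorem red₁_ne (h : CoordLoc N u ϖ p0 e z i₀) : N.S₁.red z ≠ 0 := by
  intro h0
  have h1 := h.z_node
  rw [h0, Place.ord_zero] at h1
  exact zero_ne_one h1

theorem z_ne (h : CoordLoc N u ϖ p0 e z i₀) : z ≠ 0 :=
  N.S₁.ne_zero_of_red_ne_zero h.red₁_ne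

/-- the constant `p0 ^ e / ϖ` is a unit of `A`. -/
theorem unit_mem (h : CoordLoc N u ϖ p0 e z i₀) :
    p0 ^ e * ϖ⁻¹ ∈ N.S₁.A ∧ (p0 ^ e * ϖ⁻¹)⁻¹ ∈ N.S₁.A := by
  have hϖ : N.S₁.A.valuation ϖ ≠ 0 := (Valuation.ne_zero_iff _).mpr h.ann.varpi_ne
  constructor
  · rw [← N.S₁.A.valuation_le_one_iff, map_mul, map_pow, map_inv₀, ← h.val_varpi,
      mul_inv_cancel₀ hϖ]
  · rw [← N.S₁.A.valuation_le_one_iff, map_inv₀, map_mul, map_pow, map_inv₀, ← h.val_varpi,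
      mul_inv_cancel₀ hϖ, inv_one]

/-! ### the yardstick `H = z ^ e / u` -/

theorem H_mem₁ (h : CoordLoc N u ϖ p0 e z i₀) : z ^ e * u⁻¹ ∈ N.S₁.Ov :=
  mul_mem (pow_mem h.z_mem₁ e) (N.S₁.inv_mem_of_red_ne_zero h.ann.red₁_ne)

theorem H_eq (h : CoordLoc N u ϖ p0 e z i₀) :
    z ^ e * u⁻¹ = (z / algebraMap K F p0) ^ e * algebraMap K F (p0 ^ e * ϖ⁻¹) *
      (algebraMap K F ϖ / u) := by
  have h1 : algebraMap K F p0 ≠ 0 := (map_ne_zero (algebraMap K F)).mpr h.p0_ne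
  have h2 : algebraMap K F ϖ ≠ 0 := (map_ne_zero (algebraMap K F)).mpr h.ann.varpi_ne
  have h3 := h.u_ne
  rw [map_mul, map_pow, map_inv₀, div_pow]
  field_simp

theorem H_mem₂ (h : CoordLoc N u ϖ p0 e z i₀) : z ^ e * u⁻¹ ∈ N.S₂.Ov := by
  rw [h.H_eq]
  exact mul_mem (mul_mem (pow_mem h.z_mem₂ e)
    (N.S₂.algebraMap_mem (N.toNodalCore.mem_A₂ h.unit_mem.1)))
    (N.S₂.mem_of_red_ne_zero h.ann.red₂_ne)

theorem H_ord (h : CoordLoc N u ϖ p0 e z i₀) {P : Place K F} (hP : N.rmap P = none) :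
    P.ord (z ^ e * u⁻¹) = e * P.ord z := by
  rw [P.ord_mul (pow_ne_zero e h.z_ne) (inv_ne_zero h.u_ne), Gluing.ord_pow_nat, P.ord_inv,
    h.ann.ord_N P hP, neg_zero, add_zero]

theorem H_pole (h : CoordLoc N u ϖ p0 e z i₀) : NoPoleAtNode N i₀ (z ^ e * u⁻¹) := by
  intro P hP
  rw [h.H_ord hP.1]
  exact mul_nonneg (Int.natCast_nonneg e) (h.z_pole P hP)

theorem H_red₁ (h : CoordLoc N u ϖ p0 e z i₀) :
    N.S₁.red (z ^ e * u⁻¹) = N.S₁.red z ^ e * (N.S₁.red u)⁻¹ := by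
  rw [N.S₁.red_mul (pow_mem h.z_mem₁ e) (N.S₁.inv_mem_of_red_ne_zero h.ann.red₁_ne),
    N.S₁.red_pow h.z_mem₁,
    N.S₁.red_inv (N.S₁.mem_of_red_ne_zero h.ann.red₁_ne)
      (N.S₁.inv_mem_of_red_ne_zero h.ann.red₁_ne) h.u_ne]

theorem H_red₁_ne (h : CoordLoc N u ϖ p0 e z i₀) : N.S₁.red (z ^ e * u⁻¹) ≠ 0 := by
  rw [h.H_red₁]
  exact mul_ne_zero (pow_ne_zero e h.red₁_ne) (inv_ne_zero h.ann.red₁_ne)

theorem H_ord₁ (h : CoordLoc N u ϖ p0 e z i₀) :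
    (N.s₁ i₀).ord (N.S₁.red (z ^ e * u⁻¹)) = 0 := by
  rw [h.H_red₁, (N.s₁ i₀).ord_mul (pow_ne_zero e h.red₁_ne) (inv_ne_zero h.ann.red₁_ne),
    Gluing.ord_pow_nat, h.z_node, (N.s₁ i₀).ord_inv, h.eps₁]
  ring

variable [Infinite k]

/-- the yardstick takes a nonzero value at the node `i₀`. -/
theorem H_node (h : CoordLoc N u ϖ p0 e z i₀) :
    ∃ d : k, d ≠ 0 ∧ NodeValAt N i₀ (z ^ e * u⁻¹) d := by
  obtain ⟨-, -, d, hd⟩ := node_loc h.H_mem₁ h.H_mem₂ h.H_pole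
  refine ⟨d, ?_, hd⟩
  rintro rfl
  rcases (valAt_zero_right_iff _ _).mp hd.1 with h0 | h0
  · exact h.H_red₁_ne h0
  · rw [h.H_ord₁] at h0
    exact lt_irrefl _ h0

theorem H_red₂_ne (h : CoordLoc N u ϖ p0 e z i₀) : N.S₂.red (z ^ e * u⁻¹) ≠ 0 := by
  obtain ⟨d, hd0, hd⟩ := h.H_node
  exact ev_ne_zero_of_valAt hd.2 hd0

/-- **(1)** `z / p0` is a unit of `O₂`. -/
theorem red₂_ne (h : CoordLoc N u ϖ p0 e z i₀) : N.S₂.red (z / algebraMap K F p0) ≠ 0 := by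
  intro h0
  apply h.H_red₂_ne
  rw [h.H_eq, N.S₂.red_mul (mul_mem (pow_mem h.z_mem₂ e)
    (N.S₂.algebraMap_mem (N.toNodalCore.mem_A₂ h.unit_mem.1)))
    (N.S₂.mem_of_red_ne_zero h.ann.red₂_ne),
    N.S₂.red_mul (pow_mem h.z_mem₂ e) (N.S₂.algebraMap_mem (N.toNodalCore.mem_A₂ h.unit_mem.1)),
    N.S₂.red_pow h.z_mem₂, h0, zero_pow h.e_pos.ne', zero_mul, zero_mul]

/-- **(2)** `z` has no zero at the places of type N with node `i₀`. -/
theorem ord_z_N (h : CoordLoc N u ϖ p0 e z i₀) : NoDivAtNode N i₀ z := by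
  intro P hi
  by_contra hne
  have hpos : 0 < P.ord z := lt_of_le_of_ne (h.z_pole P hi) (Ne.symm hne)
  have hH : 0 < P.ord (z ^ e * u⁻¹) := by
    rw [h.H_ord hi.1]
    exact mul_pos (by exact_mod_cast h.e_pos) hpos
  have hv : ValAt P (z ^ e * u⁻¹) 0 := (valAt_zero_right_iff _ _).mpr (Or.inr hH)
  obtain ⟨h0A, hval⟩ := eval_loc h.H_mem₁ h.H_mem₂ h.H_pole hi hv
  have h0 : N.S₁.res ⟨0, h0A⟩ = 0 := map_zero N.S₁.res
  rw [h0] at hval
  obtain ⟨d, hd0, hd⟩ := h.H_node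
  exact hd0 (hd.unique hval)

/-- `u` has neither zero nor pole at the places of type N. -/
theorem u_noDiv (h : CoordLoc N u ϖ p0 e z i₀) : NoDivAtNode N i₀ u :=
  fun P hP => h.ann.ord_N P hP.1

/-- **(3)** the reduction of `z / p0` for the second valuation has a SIMPLE POLE at the node. -/
theorem ord₂ (h : CoordLoc N u ϖ p0 e z i₀) :
    (N.s₂ i₀).ord (N.S₂.red (z / algebraMap K F p0)) = -1 := by
  have hw₂ : N.S₂.red (algebraMap K F ϖ * u⁻¹) ≠ 0 := by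
    rw [← div_eq_mul_inv]
    exact h.ann.red₂_ne
  have h₁ : N.S₁.red (z / algebraMap K F (1 : K)) ≠ 0 := by
    rw [map_one, div_one]
    exact h.red₁_ne
  have hR1 : ∃ (b : ℕ) (a : ℤ), 0 < b ∧
      N.S₁.A.valuation ((p0 / 1) ^ b) = N.S₁.A.valuation (ϖ ^ a) :=
    ⟨e, 1, h.e_pos, by rw [div_one, zpow_one, map_pow, h.val_varpi]⟩
  obtain ⟨hord, -⟩ := slope_loc h.ann.varpi_ne h.ann.red₁_ne hw₂ h.eps₁ h.eps₂ h.u_noDiv
    h.ord_z_N h₁ h.red₂_ne hR1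
  rw [hord, map_one, div_one, h.z_node]

/-- **(3')** the same with the valuation of the second normalisation made explicit:
`z / p0 ∈ O₂ˣ` and the order at the node is `-1`. -/
theorem unit₂_and_ord₂ (h : CoordLoc N u ϖ p0 e z i₀) :
    N.S₂.red (z / algebraMap K F p0) ≠ 0 ∧
      (N.s₂ i₀).ord (N.S₂.red (z / algebraMap K F p0)) = -1 :=
  ⟨h.red₂_ne, h.ord₂⟩

end CoordLoc

end Fermat.Agent.S36Reg
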