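/-
Cluster G (S36), seat W-P / REG_t, input (I1) (helper45): OLD functions with INTEGRAL
FROBENIUS-STABLE `q`-expansion at the level `q R`.

`D : ALData` (`q = D.Q` prime, `R = D.R`), `A` a place of `ℚ̄` over `q`, `S` a Gauss setup of
`F_{qR}` (`IsGaussSetup (q R) R A S`, `= v_∞`), `v_0 = valSetupZero D S = v_∞ ∘ w_q`.
`t ∈ F_R` with `t = emb z`, `z ∈ A((x))` with Frobenius-stable coefficients (`IsFrobInt`;
e.g. `z` with rational coefficients, `isFrobInt_of_rat`).  `t₀ = α t`, `t₁ = β t`.

* `alpha_mem`, `beta_mem`, `coe_red_alpha`, `coe_red_beta`, `red_beta` : `t₀, t₁ ∈ O_∞`,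
  `red t₁ = (red t₀) ^ q`;
* `delta_mem` : `δ = (t₁ - t₀ ^ q) / q ∈ O_∞`  (Frobenius congruence);
* `red_Z` : `red (t₀ - t₁ ^ q) = t̄ - t̄ ^ (q ^ 2)`;
* `frobAut_red_alpha` : `t̄` is fixed by the coefficientwise Frobenius; `ord_frobAut_inv_red_alpha`;
* `w`-side: `alpha_mem_zero`, `beta_mem_zero`, `red_zero_alpha`, `red_zero_beta`,
  `theta_mem_zero`, `red_zero_theta` (`red₀ (t₁ - t₀ ^ q) = t̄ - t̄ ^ (q ^ 2)`),
  `Z_div_mem_zero`, `red_zero_Z_div` (`red₀ ((t₀ - t₁ ^ q) / q) = red δ`).
-/
import Mathlib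
import Fermat.Agent.S36.Reg.FrobCong
import Fermat.Agent.Lib.BadRed.Mod.OldRed

set_option autoImplicit false
set_option linter.style.haveILetI false
set_option linter.unusedSectionVars false
set_option linter.unusedVariables false
set_option synthInstance.maxHeartbeats 400000

noncomputable section

namespace Fermat.Agent.S36RegN

open ModularCurve AlgebraicCurve HahnSeries Fermat.Agent.GaussInt Fermat.Agent.AtkinLehner
  Fermat.Agent.Deuring Fermat.Agent.BadRed Fermat.Agent.Kronecker

local notation "Qb" => AlgebraicClosure ℚ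

attribute [local instance 10000] SubalgebraClass.toAlgebra HahnSeries.powerSeriesAlgebra

variable (D : ALData) [NeZero D.Q] [NeZero D.R] [NeZero (D.Q * D.R)]
  (A : ValuationSubring Qb)

/-- the datum of (REG_t): `t ∈ F_R` has the expansion `z ∈ A((x))` with Frobenius-stable
coefficients. -/
structure IsFrobInt (t : modularFunctionFieldBar D.R) (z : LaurentSeries A) : Prop where
  emb_eq : emb A z = (t : LaurentSeries Qb)
  stable : FrobStable A D.Q z

/-- rational integral expansions are Frobenius-stable. -/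
theorem isFrobInt_of_rat [Fact D.Q.Prime] (hA : A.LiesOverPrime D.Q)
    (t : modularFunctionFieldBar D.R) (z : LaurentSeries A)
    (hz : emb A z = (t : LaurentSeries Qb))
    (hrat : ∀ n, ∃ r : ℚ, ((z.coeff n : A) : Qb) = (r : Qb)) : IsFrobInt D A t z :=
  ⟨hz, frobStable_of_rat hA z hrat⟩

variable {D A}
variable {S : ValSetup Qb (modularFunctionFieldBar (D.Q * D.R)) (IsLocalRing.ResidueField A)
    (modularFunctionFieldFullC (IsLocalRing.ResidueField A) D.R)}
  (hS : IsGaussSetup (D.Q * D.R) D.R A S)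
  {t : modularFunctionFieldBar D.R} {z : LaurentSeries A}

namespace IsFrobInt

include hS in
theorem alpha_mem (h : IsFrobInt D A t z) : alphaQ D t ∈ S.Ov := by
  rw [hS.mem_iff, coe_alphaQ, ← h.emb_eq]
  apply emb_mem_gaussSub
  rw [h.emb_eq]
  exact le_level_mul D t.2

include hS in
theorem coe_red_alpha (h : IsFrobInt D A t z) :
    ((S.red (alphaQ D t) : modularFunctionFieldFullC (IsLocalRing.ResidueField A) D.R) :
      LaurentSeries (IsLocalRing.ResidueField A)) = red A z := by
  have hmem : emb A z ∈ modularFunctionFieldBar (D.Q * D.R) := by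
    rw [h.emb_eq]
    exact le_level_mul D t.2
  rw [hS.coe_red _ (h.alpha_mem hS), coe_alphaQ, ← h.emb_eq, gaussResFun_emb hmem]

theorem coe_beta (h : IsFrobInt D A t z) :
    ((betaQ D t : modularFunctionFieldBar (D.Q * D.R)) : LaurentSeries Qb) =
      emb A (qExpand A D.Q z) := by
  rw [coe_betaQ, Fermat.Agent.GaussIntFP.emb_qExpand, h.emb_eq]

include hS in
theorem beta_mem (h : IsFrobInt D A t z) : betaQ D t ∈ S.Ov := by
  rw [hS.mem_iff, h.coe_beta]
  apply emb_mem_gaussSub
  rw [← h.coe_beta]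
  exact (betaQ D t).2

include hS in
theorem coe_red_beta (h : IsFrobInt D A t z) :
    ((S.red (betaQ D t) : modularFunctionFieldFullC (IsLocalRing.ResidueField A) D.R) :
      LaurentSeries (IsLocalRing.ResidueField A)) =
        qExpand (IsLocalRing.ResidueField A) D.Q (red A z) := by
  have hmem : emb A (qExpand A D.Q z) ∈ modularFunctionFieldBar (D.Q * D.R) := by
    rw [← h.coe_beta]
    exact (betaQ D t).2
  rw [hS.coe_red _ (h.beta_mem hS), h.coe_beta, gaussResFun_emb hmem,
    Fermat.Agent.GaussIntFP.red_qExpand]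

variable [Fact D.Q.Prime] [CharP (IsLocalRing.ResidueField A) D.Q]

include hS in
/-- `red t₁ = (red t₀) ^ q`. -/
theorem red_beta (h : IsFrobInt D A t z) :
    S.red (betaQ D t) = S.red (alphaQ D t) ^ D.Q := by
  apply Subtype.ext
  rw [h.coe_red_beta hS, red_frobStable h.stable]
  show _ = ((S.red (alphaQ D t) : modularFunctionFieldFullC (IsLocalRing.ResidueField A) D.R) :
      LaurentSeries (IsLocalRing.ResidueField A)) ^ D.Q
  rw [h.coe_red_alpha hS]

include hS in
/-- `t̄` has coefficients in the prime field. -/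
theorem coeffMap_frobenius_red_alpha (h : IsFrobInt D A t z) :
    coeffMap (frobenius (IsLocalRing.ResidueField A) D.Q)
      ((S.red (alphaQ D t) : modularFunctionFieldFullC (IsLocalRing.ResidueField A) D.R) :
        LaurentSeries (IsLocalRing.ResidueField A)) =
      ((S.red (alphaQ D t) : modularFunctionFieldFullC (IsLocalRing.ResidueField A) D.R) :
        LaurentSeries (IsLocalRing.ResidueField A)) := by
  rw [h.coe_red_alpha hS]
  exact red_frobStable_coeff h.stable

include hS in
/-- `red (t₀ - t₁ ^ q) = t̄ - t̄ ^ (q ^ 2)`. -/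
theorem red_Z (h : IsFrobInt D A t z) :
    S.red (alphaQ D t - betaQ D t ^ D.Q) =
      S.red (alphaQ D t) - S.red (alphaQ D t) ^ (D.Q ^ 2) := by
  rw [S.red_sub (h.alpha_mem hS) (pow_mem (h.beta_mem hS) _), S.red_pow (h.beta_mem hS),
    h.red_beta hS, ← pow_mul, pow_two]

include hS in
/-- **Frobenius congruence**: `δ = (t₁ - t₀ ^ q) / q` is integral for `v_∞`. -/
theorem delta_mem (hA : A.LiesOverPrime D.Q) (h : IsFrobInt D A t z) :
    (betaQ D t - alphaQ D t ^ D.Q) /
      algebraMap Qb (modularFunctionFieldBar (D.Q * D.R)) (D.Q : Qb) ∈ S.Ov := by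
  obtain ⟨Y, hY⟩ := frobCong_exists hA h.stable
  have hq0 : (D.Q : Qb) ≠ 0 := by exact_mod_cast (Fact.out : D.Q.Prime).ne_zero
  have hCeq : (HahnSeries.C (D.Q : Qb) : LaurentSeries Qb) =
      algebraMap Qb (LaurentSeries Qb) (D.Q : Qb) := by
    rw [algebraMap_laurentSeries_eq_single, HahnSeries.C_apply]
  have hC0 : (algebraMap Qb (LaurentSeries Qb) (D.Q : Qb) : LaurentSeries Qb) ≠ 0 := by
    rw [← hCeq, Ne, ← map_zero (HahnSeries.C : Qb →+* LaurentSeries Qb)]
    exact fun h0 => hq0 (HahnSeries.C_injective h0)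
  have hcoe : (((betaQ D t - alphaQ D t ^ D.Q) /
      algebraMap Qb (modularFunctionFieldBar (D.Q * D.R)) (D.Q : Qb) :
        modularFunctionFieldBar (D.Q * D.R)) : LaurentSeries Qb) = emb A Y := by
    have h1 : (((betaQ D t - alphaQ D t ^ D.Q) /
        algebraMap Qb (modularFunctionFieldBar (D.Q * D.R)) (D.Q : Qb) :
          modularFunctionFieldBar (D.Q * D.R)) : LaurentSeries Qb) =
        (qExpand Qb D.Q (t : LaurentSeries Qb) - (t : LaurentSeries Qb) ^ D.Q) /
          algebraMap Qb (LaurentSeries Qb) (D.Q : Qb) := by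
      have e_den : ((algebraMap Qb (modularFunctionFieldBar (D.Q * D.R)) (D.Q : Qb) :
          modularFunctionFieldBar (D.Q * D.R)) : LaurentSeries Qb) =
          algebraMap Qb (LaurentSeries Qb) (D.Q : Qb) := rfl
      rw [IntermediateField.coe_div, AddSubgroupClass.coe_sub, IntermediateField.coe_pow,
        coe_betaQ, coe_alphaQ, e_den]
    rw [h1, ← h.emb_eq, ← hY, hCeq, mul_div_cancel_left₀ _ hC0]
  rw [hS.mem_iff, hcoe]
  apply emb_mem_gaussSub
  rw [← hcoe]
  exact Subtype.mem _

/-! ### the side `v_0 = v_∞ ∘ w_q` -/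

include hS in
theorem alpha_mem_zero (h : IsFrobInt D A t z) : alphaQ D t ∈ (valSetupZero D S).Ov := by
  rw [mem_valSetupZero_Ov, atkinLehner_alphaQ]
  exact h.beta_mem hS

include hS in
theorem beta_mem_zero (h : IsFrobInt D A t z) : betaQ D t ∈ (valSetupZero D S).Ov := by
  rw [mem_valSetupZero_Ov, atkinLehner_betaQ]
  exact h.alpha_mem hS

theorem red_zero_alpha (h : IsFrobInt D A t z) :
    (valSetupZero D S).red (alphaQ D t) = S.red (betaQ D t) := by
  rw [valSetupZero_red, atkinLehner_alphaQ]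

theorem red_zero_beta (h : IsFrobInt D A t z) :
    (valSetupZero D S).red (betaQ D t) = S.red (alphaQ D t) := by
  rw [valSetupZero_red, atkinLehner_betaQ]

theorem atkinLehner_theta (t : modularFunctionFieldBar D.R) :
    atkinLehner D (betaQ D t - alphaQ D t ^ D.Q) = alphaQ D t - betaQ D t ^ D.Q := by
  rw [map_sub, map_pow, atkinLehner_betaQ, atkinLehner_alphaQ]

theorem atkinLehner_Z (t : modularFunctionFieldBar D.R) :
    atkinLehner D (alphaQ D t - betaQ D t ^ D.Q) = betaQ D t - alphaQ D t ^ D.Q := by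
  rw [map_sub, map_pow, atkinLehner_betaQ, atkinLehner_alphaQ]

include hS in
/-- `θ = t₁ - t₀ ^ q` is integral for `v_0`. -/
theorem theta_mem_zero (h : IsFrobInt D A t z) :
    betaQ D t - alphaQ D t ^ D.Q ∈ (valSetupZero D S).Ov := by
  rw [mem_valSetupZero_Ov, atkinLehner_theta]
  exact sub_mem (h.alpha_mem hS) (pow_mem (h.beta_mem hS) _)

include hS in
/-- `red₀ (t₁ - t₀ ^ q) = t̄ - t̄ ^ (q ^ 2)`. -/
theorem red_zero_theta (h : IsFrobInt D A t z) :
    (valSetupZero D S).red (betaQ D t - alphaQ D t ^ D.Q) =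
      S.red (alphaQ D t) - S.red (alphaQ D t) ^ (D.Q ^ 2) := by
  rw [valSetupZero_red, atkinLehner_theta, h.red_Z hS]

include hS in
/-- `(t₀ - t₁ ^ q) / q` is integral for `v_0`. -/
theorem Z_div_mem_zero (hA : A.LiesOverPrime D.Q) (h : IsFrobInt D A t z) :
    (alphaQ D t - betaQ D t ^ D.Q) /
      algebraMap Qb (modularFunctionFieldBar (D.Q * D.R)) (D.Q : Qb) ∈ (valSetupZero D S).Ov := by
  rw [mem_valSetupZero_Ov, map_div₀, atkinLehner_Z, AlgEquiv.commutes]
  exact h.delta_mem hS hA

/-- `red₀ ((t₀ - t₁ ^ q) / q) = red δ`. -/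
theorem red_zero_Z_div (h : IsFrobInt D A t z) :
    (valSetupZero D S).red ((alphaQ D t - betaQ D t ^ D.Q) /
      algebraMap Qb (modularFunctionFieldBar (D.Q * D.R)) (D.Q : Qb)) =
      S.red ((betaQ D t - alphaQ D t ^ D.Q) /
        algebraMap Qb (modularFunctionFieldBar (D.Q * D.R)) (D.Q : Qb)) := by
  rw [valSetupZero_red, map_div₀, atkinLehner_Z, AlgEquiv.commutes]

end IsFrobInt

end Fermat.Agent.S36RegN
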