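/-
Cluster G (S36), seat W-P / REG_t (helper45): the NODE form of the regularity statement,
abstract over a nodal seed `N : NodalSeed K F k Fk₁ Fk₂ ι` (cluster T) with `u`-data AT ONE
NODE `i`  (`u ∈ O₁ˣ`, `ϖ / u ∈ O₂ˣ`, `ord_{s₁ i} red₁ u = ord_{s₂ i} red₂ (ϖ / u) = ε`).

`regNode` : let `θ` have no pole at the places of type N with node `i`, `θ ∈ O₂ˣ` with
`ord_{s₂ i} red₂ θ = a`, `θ / c ∈ O₁` and `c ^ ε = ϖ ^ a`.  Then

  `red₁ (θ / c) ≠ 0`,   `ord_{s₁ i} red₁ (θ / c) = - a`,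

and `θ` has no zero at the places of type N with node `i` (`regNode_noDiv`).

This is `PeuD.slope_loc` with the hypothesis "`θ` has no zero of type N at the node" REPLACED by
the integrality "`θ / c ∈ O₁`" (maximum principle on one annulus).  Proof: `f := (θ / c) ^ ε u ^ a`
lies in `O₁ ∩ O₂`, has no pole of type N at the node, and `red₂ f = (red₂ θ) ^ ε / red₂ (ϖ / u) ^ a`
has order `0` at `s₂ i`; by NODE-loc (`PeuD.node_loc`) `red₁ f` takes the same nonzero value at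
`s₁ i`.

Use (REG_t): `θ = t(q^q) - t(q)^q` at level `q M₀`, `c = q`, `u = Δ(z) / Δ(qz)`, `ϖ = q ^ 12`,
`ε = 12`, `a = 1`:  `red ((t(q^q) - t^q) / q)` has a SIMPLE POLE at the supersingular point `P`
where `t̄` is a uniformiser.
-/
import Mathlib
import Fermat.Agent.Lib.BadRed.PeuD.NodeLoc

set_option autoImplicit false
set_option linter.unusedSectionVars false
set_option linter.unusedVariables false

noncomputable section

open AlgebraicCurve Fermat.Agent.RR Fermat.Agent.Deuring Fermat.Agent.BadRed Fermat.Agent.EKp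
  Fermat.Agent.PeuD

namespace Fermat.Agent.S36RegN

variable {K F k Fk₁ Fk₂ : Type*} [Field K] [Field F] [Algebra K F]
  [Field k] [Field Fk₁] [Algebra k Fk₁] [Field Fk₂] [Algebra k Fk₂] {ι : Type*} [Fintype ι]

variable {N : NodalSeed K F k Fk₁ Fk₂ ι}

/-- a nonzero function of order `0` has a nonzero value. -/
theorem ne_zero_of_valAt_of_ord_eq_zero {k' F' : Type*} [Field k'] [Field F'] [Algebra k' F']
    {Q : Place k' F'} {g : F'} {d : k'} (hg : g ≠ 0) (hord : Q.ord g = 0) (h : ValAt Q g d) :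
    d ≠ 0 := by
  rintro rfl
  rcases h with h | h
  · rw [map_zero] at h
    exact hg h
  · rw [map_zero, sub_zero] at h
    omega

/-- division by a nonzero constant does not change the orders. -/
theorem regNode_ord_div_const (P : Place K F) (f : F) {c : K} (hc : c ≠ 0) :
    P.ord (f / algebraMap K F c) = P.ord f := by
  rcases eq_or_ne f 0 with rfl | hf
  · rw [zero_div]
  have hca : algebraMap K F c ≠ 0 := (map_ne_zero (algebraMap K F)).mpr hc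
  rw [div_eq_mul_inv, P.ord_mul hf (inv_ne_zero hca), P.ord_inv,
    Fermat.Agent.S24Res.ord_algebraMap, neg_zero, add_zero]

theorem regNode_ord_pow {K' F' : Type*} [Field K'] [Field F'] [Algebra K' F'] (Q : Place K' F')
    (f : F') (n : ℕ) : Q.ord (f ^ n) = n * Q.ord f := by
  have := Q.ord_zpow f (n : ℤ)
  rwa [zpow_natCast] at this

/-- the auxiliary function `f = (θ / c) ^ ε u ^ a` of `regNode`: membership, reductions and the
common nonzero value at the node. -/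
theorem regNode_aux [Infinite k] {u : F} {ϖ : K} {ε a : ℕ} {i : ι}
    (hu₁ : N.S₁.red u ≠ 0) (hw₂ : N.S₂.red (algebraMap K F ϖ * u⁻¹) ≠ 0)
    (hε₂ : (N.s₂ i).ord (N.S₂.red (algebraMap K F ϖ * u⁻¹)) = ε)
    (hu : NoPoleAtNode N i u)
    {θ : F} (hθ : NoPoleAtNode N i θ) {c : K} (hc : c ≠ 0) (hcϖ : c ^ ε = ϖ ^ a)
    (h₁ : θ / algebraMap K F c ∈ N.S₁.Ov)
    (h₂ : N.S₂.red θ ≠ 0) (ha : (N.s₂ i).ord (N.S₂.red θ) = a) :
    (θ / algebraMap K F c) ^ ε * u ^ a ∈ N.S₁.Ov ∧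
      (θ / algebraMap K F c) ^ ε * u ^ a ∈ N.S₂.Ov ∧
      NoPoleAtNode N i ((θ / algebraMap K F c) ^ ε * u ^ a) ∧
      ∃ d : k, d ≠ 0 ∧ NodeValAt N i ((θ / algebraMap K F c) ^ ε * u ^ a) d := by
  classical
  have hθ0 : θ ≠ 0 := N.S₂.ne_zero_of_red_ne_zero h₂
  have hu0 : u ≠ 0 := N.S₁.ne_zero_of_red_ne_zero hu₁
  have hw0 : algebraMap K F ϖ * u⁻¹ ≠ 0 := N.S₂.ne_zero_of_red_ne_zero hw₂
  have hϖF : algebraMap K F ϖ ≠ 0 := left_ne_zero_of_mul hw0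
  have hcF : algebraMap K F c ≠ 0 := (map_ne_zero (algebraMap K F)).mpr hc
  have hθm₂ : θ ∈ N.S₂.Ov := N.S₂.mem_of_red_ne_zero h₂
  have hum₁ : u ∈ N.S₁.Ov := N.S₁.mem_of_red_ne_zero hu₁
  have hwm₂ : algebraMap K F ϖ * u⁻¹ ∈ N.S₂.Ov := N.S₂.mem_of_red_ne_zero hw₂
  have hwi₂ : (algebraMap K F ϖ * u⁻¹)⁻¹ ∈ N.S₂.Ov := N.S₂.inv_mem_of_red_ne_zero hw₂
  set f : F := (θ / algebraMap K F c) ^ ε * u ^ a with hf
  -- the second shape of `f`
  have hf' : f = θ ^ ε * ((algebraMap K F ϖ * u⁻¹)⁻¹) ^ a := by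
    have hcε : algebraMap K F c ^ ε = algebraMap K F ϖ ^ a := by
      rw [← map_pow, ← map_pow, hcϖ]
    rw [hf, div_pow, hcε, mul_inv, inv_inv, mul_pow, inv_pow]
    field_simp
  have hf₁ : f ∈ N.S₁.Ov := mul_mem (pow_mem h₁ ε) (pow_mem hum₁ a)
  have hf₂ : f ∈ N.S₂.Ov := by
    rw [hf']
    exact mul_mem (pow_mem hθm₂ ε) (pow_mem hwi₂ a)
  have hpole : NoPoleAtNode N i f := by
    intro P hP
    have h1 : 0 ≤ P.ord θ := hθ P hP
    have h2 : 0 ≤ P.ord u := hu P hP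
    have h3 : P.ord (θ / algebraMap K F c) = P.ord θ := regNode_ord_div_const P θ hc
    rw [hf, P.ord_mul (pow_ne_zero _ (div_ne_zero hθ0 hcF)) (pow_ne_zero _ hu0),
      regNode_ord_pow, regNode_ord_pow, h3]
    positivity
  -- the reduction on the second side has order `0` at the node
  have hred₂ : N.S₂.red f =
      N.S₂.red θ ^ ε * ((N.S₂.red (algebraMap K F ϖ * u⁻¹))⁻¹) ^ a := by
    rw [hf', N.S₂.red_mul (pow_mem hθm₂ ε) (pow_mem hwi₂ a), N.S₂.red_pow hθm₂,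
      N.S₂.red_pow hwi₂, N.S₂.red_inv hwm₂ hwi₂ hw0]
  have hred₂0 : N.S₂.red f ≠ 0 := by
    rw [hred₂]
    exact mul_ne_zero (pow_ne_zero _ h₂) (pow_ne_zero _ (inv_ne_zero hw₂))
  have hord₂ : (N.s₂ i).ord (N.S₂.red f) = 0 := by
    rw [hred₂, (N.s₂ i).ord_mul (pow_ne_zero _ h₂) (pow_ne_zero _ (inv_ne_zero hw₂)),
      regNode_ord_pow, regNode_ord_pow, (N.s₂ i).ord_inv, ha, hε₂]
    ring
  obtain ⟨-, -, d, hd⟩ := node_loc hf₁ hf₂ hpole
  exact ⟨hf₁, hf₂, hpole, d, ne_zero_of_valAt_of_ord_eq_zero hred₂0 hord₂ hd.2, hd⟩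

/-- **REG (node form)**: integrality on the first side forces the exact slope. -/
theorem regNode [Infinite k] {u : F} {ϖ : K} {ε a : ℕ} {i : ι} (hε : 0 < ε)
    (hu₁ : N.S₁.red u ≠ 0) (hw₂ : N.S₂.red (algebraMap K F ϖ * u⁻¹) ≠ 0)
    (hε₁ : (N.s₁ i).ord (N.S₁.red u) = ε)
    (hε₂ : (N.s₂ i).ord (N.S₂.red (algebraMap K F ϖ * u⁻¹)) = ε)
    (hu : NoPoleAtNode N i u)
    {θ : F} (hθ : NoPoleAtNode N i θ) {c : K} (hc : c ≠ 0) (hcϖ : c ^ ε = ϖ ^ a)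
    (h₁ : θ / algebraMap K F c ∈ N.S₁.Ov)
    (h₂ : N.S₂.red θ ≠ 0) (ha : (N.s₂ i).ord (N.S₂.red θ) = a) :
    N.S₁.red (θ / algebraMap K F c) ≠ 0 ∧
      (N.s₁ i).ord (N.S₁.red (θ / algebraMap K F c)) = -(a : ℤ) := by
  classical
  obtain ⟨hf₁, hf₂, hpole, d, hd0, hd⟩ :=
    regNode_aux hu₁ hw₂ hε₂ hu hθ hc hcϖ h₁ h₂ ha
  have hum₁ : u ∈ N.S₁.Ov := N.S₁.mem_of_red_ne_zero hu₁
  have hred₁ : N.S₁.red ((θ / algebraMap K F c) ^ ε * u ^ a) =
      N.S₁.red (θ / algebraMap K F c) ^ ε * N.S₁.red u ^ a := by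
    rw [N.S₁.red_mul (pow_mem h₁ ε) (pow_mem hum₁ a), N.S₁.red_pow h₁, N.S₁.red_pow hum₁]
  have hord₁ := Gluing.ord_eq_zero_of_valAt hd.1 hd0
  have hne₁ : N.S₁.red ((θ / algebraMap K F c) ^ ε * u ^ a) ≠ 0 := by
    intro h0
    have hd1 : ValAt (N.s₁ i) (N.S₁.red ((θ / algebraMap K F c) ^ ε * u ^ a)) d := hd.1
    rw [h0] at hd1
    exact hd0 (hd1.unique (valAt_zero _))
  rw [hred₁] at hord₁ hne₁
  have hδ : N.S₁.red (θ / algebraMap K F c) ≠ 0 := by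
    intro h0
    rw [h0, zero_pow hε.ne', zero_mul] at hne₁
    exact hne₁ rfl
  refine ⟨hδ, ?_⟩
  rw [(N.s₁ i).ord_mul (pow_ne_zero _ hδ) (pow_ne_zero _ hu₁), regNode_ord_pow, regNode_ord_pow,
    hε₁] at hord₁
  have hε' : (0 : ℤ) < ε := by exact_mod_cast hε
  have h3 : (ε : ℤ) * ((N.s₁ i).ord (N.S₁.red (θ / algebraMap K F c)) + a) = 0 := by
    rw [mul_add]
    linarith [mul_comm (a : ℤ) (ε : ℤ)]
  rcases mul_eq_zero.mp h3 with h | h
  · omega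
  · omega

/-- **REG (node form), by-product**: `θ` has no zero at the places of type N with node `i`. -/
theorem regNode_noDiv [Infinite k] {u : F} {ϖ : K} {ε a : ℕ} {i : ι} (hε : 0 < ε)
    (hu₁ : N.S₁.red u ≠ 0) (hw₂ : N.S₂.red (algebraMap K F ϖ * u⁻¹) ≠ 0)
    (hε₂ : (N.s₂ i).ord (N.S₂.red (algebraMap K F ϖ * u⁻¹)) = ε)
    (hu : NoPoleAtNode N i u)
    {θ : F} (hθ : NoPoleAtNode N i θ) {c : K} (hc : c ≠ 0) (hcϖ : c ^ ε = ϖ ^ a)
    (h₁ : θ / algebraMap K F c ∈ N.S₁.Ov)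
    (h₂ : N.S₂.red θ ≠ 0) (ha : (N.s₂ i).ord (N.S₂.red θ) = a) :
    NoDivAtNode N i θ := by
  classical
  obtain ⟨hf₁, hf₂, hpole, d, hd0, hd⟩ :=
    regNode_aux hu₁ hw₂ hε₂ hu hθ hc hcϖ h₁ h₂ ha
  have hθ0 : θ ≠ 0 := N.S₂.ne_zero_of_red_ne_zero h₂
  have hu0 : u ≠ 0 := N.S₁.ne_zero_of_red_ne_zero hu₁
  have hcF : algebraMap K F c ≠ 0 := (map_ne_zero (algebraMap K F)).mpr hc
  intro P hP
  have h1 : 0 ≤ P.ord θ := hθ P hP
  by_contra hne
  have hpos : 0 < P.ord θ := lt_of_le_of_ne h1 (Ne.symm hne)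
  have h2 : 0 ≤ P.ord u := hu P hP
  have h3 : P.ord (θ / algebraMap K F c) = P.ord θ := regNode_ord_div_const P θ hc
  have hford : 0 < P.ord ((θ / algebraMap K F c) ^ ε * u ^ a) := by
    rw [P.ord_mul (pow_ne_zero _ (div_ne_zero hθ0 hcF)) (pow_ne_zero _ hu0),
      regNode_ord_pow, regNode_ord_pow, h3]
    have hε' : (0 : ℤ) < ε := by exact_mod_cast hε
    have : 0 < (ε : ℤ) * P.ord θ := mul_pos hε' hpos
    have : 0 ≤ (a : ℤ) * P.ord u := mul_nonneg (by positivity) h2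
    omega
  have hval : ValAt P ((θ / algebraMap K F c) ^ ε * u ^ a) 0 :=
    Or.inr (by rwa [map_zero, sub_zero])
  obtain ⟨hcA, hv⟩ := eval_loc hf₁ hf₂ hpole hP hval
  have e0 : N.S₁.res ⟨0, hcA⟩ = 0 := map_zero N.S₁.res
  rw [e0] at hv
  exact hd0 (hd.unique hv)

end Fermat.Agent.S36RegN
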