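/-
S36 (cluster G), block W-P, seat REG, LOCAL modular instance (helper26).

The abstract local coordinate theorem `CoordLoc` (`S36/Reg/CoordLoc.lean`) at the MODULAR nodal
seed `kpSeed D A ..` of level `q R` (`q = D.Q`, `q ∤ R`): `u = fwU D = Δ(z)/Δ(qz)`,
`ϖ = fwPi D = q ^ 12`, `p0 = q`, `e = 12`, at ONE node `i₀` with `ε_{i₀} = 12`
(`r38_kpEps_eq_twelve` if `q ≥ 5`, `ν₂(R) = ν₃(R) = 0`).

* `coordLoc_kp_of_eps`  : `ε_{i₀} = 12`, `z ∈ O_∞`, `w_q z / q ∈ O_∞`, no pole of `z` at the places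
  of type N with node `i₀`, `ord_{i₀} red_∞ z = 1`
  ⟹  `CoordLoc (kpSeed ..) (fwU D) (fwPi D) q 12 z i₀`.
* `regLoc_red_ne`, `regLoc_simple_pole` : then `δ := w_q z / q` has `red_∞ δ ≠ 0` and
  `ord_{Frob⁻¹ i₀} red_∞ δ = -1` (a SIMPLE POLE at the supersingular place `Frob⁻¹ i₀`).
* `regLoc_noDiv` : `z` has no zero at the places of type N with node `i₀`.
* `regLocT_*` : the same for `z = α t - (β t) ^ q`, `δ = (β t - (α t) ^ q) / q`.
* `*_five` : the versions with `ε_{i₀} = 12` discharged (`q ≥ 5`, `ν₂(R) = ν₃(R) = 0`).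
-/
import Mathlib
import Fermat.Agent.S36.Reg.CoordLoc
import Fermat.Agent.Lib.BadRed.PeuD.ModU
import Fermat.Agent.Lib.BadRed.Mod.ALDegeneracy
import Fermat.Agent.R38.P.Eps

set_option autoImplicit false
set_option linter.style.haveILetI false
set_option linter.unusedSectionVars false
set_option linter.unusedVariables false
set_option synthInstance.maxHeartbeats 400000

noncomputable section
attribute [local instance 10000] SubalgebraClass.toAlgebra HahnSeries.powerSeriesAlgebra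

namespace Fermat.Agent.S36Reg

open IntermediateField ModularCurve AlgebraicCurve Fermat.Agent.F3 Fermat.Agent.F3G
  Fermat.Agent.GaussInt Fermat.Agent.AtkinLehner Fermat.Agent.Deuring Fermat.Agent.RR
  Fermat.Agent.BadRed Fermat.Agent.EKp Fermat.Agent.PeuD Fermat.Agent.R38

local notation "Qb" => AlgebraicClosure ℚ

attribute [local instance] Fermat.Agent.BadRed.fwFintype

variable (D : ALData) [NeZero D.Q] [NeZero D.R] [NeZero (D.Q * D.R)]
  (A : ValuationSubring Qb) (hq : D.Q.Prime) (hA : A.LiesOverPrime D.Q) (hqR : ¬ D.Q ∣ D.R)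
  [Fact D.Q.Prime] [CharP (IsLocalRing.ResidueField A) D.Q]
  [PerfectRing (IsLocalRing.ResidueField A) D.Q]

/-- `w_q` commutes with the division by the constant `q`. -/
theorem atkinLehner_div_const (z : modularFunctionFieldBar (D.Q * D.R)) (c : Qb) :
    atkinLehner D (z / algebraMap Qb (modularFunctionFieldBar (D.Q * D.R)) c) =
      atkinLehner D z / algebraMap Qb (modularFunctionFieldBar (D.Q * D.R)) c := by
  rw [map_div₀]
  congr 1
  exact (atkinLehner D).commutes c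

/-- **the local coordinate datum at the modular seed** (`ε_{i₀} = 12` as a hypothesis). -/
theorem coordLoc_kp_of_eps (haux : AuxLevelOK D.Q D.R)
    {z : modularFunctionFieldBar (D.Q * D.R)} {i₀ : kpIota D A hq hA hqR}
    (heps : kpEps D A hq hA hqR i₀ = 12)
    (hz₁ : z ∈ (kpS D A hq hA hqR).Ov)
    (hz₂ : atkinLehner D z / algebraMap Qb (modularFunctionFieldBar (D.Q * D.R)) (D.Q : Qb) ∈
      (kpS D A hq hA hqR).Ov)
    (hpole : NoPoleAtNode (kpSeed D A hq hA hqR haux) i₀ z)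
    (hnode : i₀.1.ord ((kpS D A hq hA hqR).red z) = 1) :
    CoordLoc (kpSeed D A hq hA hqR haux) (fwU D) (fwPi D) (D.Q : Qb) 12 z i₀ where
  ann := wu_annulus D A hq hA hqR haux
  e_pos := by norm_num
  val_varpi := wu_val_pi D A hq hA hqR haux
  eps₁ := by
    rw [wu_eps₁ D A hq hA hqR haux i₀, heps]
  eps₂ := by
    rw [wu_eps₂ D A hq hA hqR haux i₀, heps]
  z_mem₁ := hz₁
  z_mem₂ := by
    have e := atkinLehner_div_const D z (D.Q : Qb)
    have h : atkinLehner D (z / algebraMap Qb (modularFunctionFieldBar (D.Q * D.R)) (D.Q : Qb)) ∈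
        (kpS D A hq hA hqR).Ov := e ▸ hz₂
    exact (mem_valSetupZero_Ov D (kpS D A hq hA hqR) _).mpr h
  z_pole := hpole
  z_node := hnode

/-- `red_∞ (w_q z / q) ≠ 0`: `w_q z / q` is a Gauss unit. -/
theorem regLoc_red_ne (haux : AuxLevelOK D.Q D.R)
    {z : modularFunctionFieldBar (D.Q * D.R)} {i₀ : kpIota D A hq hA hqR}
    (heps : kpEps D A hq hA hqR i₀ = 12)
    (hz₁ : z ∈ (kpS D A hq hA hqR).Ov)
    (hz₂ : atkinLehner D z / algebraMap Qb (modularFunctionFieldBar (D.Q * D.R)) (D.Q : Qb) ∈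
      (kpS D A hq hA hqR).Ov)
    (hpole : NoPoleAtNode (kpSeed D A hq hA hqR haux) i₀ z)
    (hnode : i₀.1.ord ((kpS D A hq hA hqR).red z) = 1) :
    (kpS D A hq hA hqR).red
      (atkinLehner D z / algebraMap Qb (modularFunctionFieldBar (D.Q * D.R)) (D.Q : Qb)) ≠ 0 := by
  haveI := infinite_residue A
  have h := (coordLoc_kp_of_eps D A hq hA hqR haux heps hz₁ hz₂ hpole hnode).red₂_ne
  have e : (kpSeed D A hq hA hqR haux).S₂.red
      (z / algebraMap Qb (modularFunctionFieldBar (D.Q * D.R)) (D.Q : Qb)) =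
      (kpS D A hq hA hqR).red
        (atkinLehner D z / algebraMap Qb (modularFunctionFieldBar (D.Q * D.R)) (D.Q : Qb)) := by
    rw [← atkinLehner_div_const D z (D.Q : Qb)]
    exact valSetupZero_red D (kpS D A hq hA hqR) _
  rwa [e] at h

/-- **REG, local modular form**: `red_∞ (w_q z / q)` has a SIMPLE POLE at the supersingular
place `Frob⁻¹ i₀`. -/
theorem regLoc_simple_pole (haux : AuxLevelOK D.Q D.R)
    {z : modularFunctionFieldBar (D.Q * D.R)} {i₀ : kpIota D A hq hA hqR}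
    (heps : kpEps D A hq hA hqR i₀ = 12)
    (hz₁ : z ∈ (kpS D A hq hA hqR).Ov)
    (hz₂ : atkinLehner D z / algebraMap Qb (modularFunctionFieldBar (D.Q * D.R)) (D.Q : Qb) ∈
      (kpS D A hq hA hqR).Ov)
    (hpole : NoPoleAtNode (kpSeed D A hq hA hqR haux) i₀ z)
    (hnode : i₀.1.ord ((kpS D A hq hA hqR).red z) = 1) :
    ((frobAut (IsLocalRing.ResidueField A) D.R D.Q)⁻¹ • i₀.1).ord
      ((kpS D A hq hA hqR).red
        (atkinLehner D z / algebraMap Qb (modularFunctionFieldBar (D.Q * D.R)) (D.Q : Qb))) =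
      -1 := by
  haveI := infinite_residue A
  have h := (coordLoc_kp_of_eps D A hq hA hqR haux heps hz₁ hz₂ hpole hnode).ord₂
  have e : (kpSeed D A hq hA hqR haux).S₂.red
      (z / algebraMap Qb (modularFunctionFieldBar (D.Q * D.R)) (D.Q : Qb)) =
      (kpS D A hq hA hqR).red
        (atkinLehner D z / algebraMap Qb (modularFunctionFieldBar (D.Q * D.R)) (D.Q : Qb)) := by
    rw [← atkinLehner_div_const D z (D.Q : Qb)]
    exact valSetupZero_red D (kpS D A hq hA hqR) _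
  rw [e, wu_s₂ D A hq hA hqR haux i₀] at h
  exact h

/-- `z` has neither zero nor pole at the places of type N with node `i₀`. -/
theorem regLoc_noDiv (haux : AuxLevelOK D.Q D.R)
    {z : modularFunctionFieldBar (D.Q * D.R)} {i₀ : kpIota D A hq hA hqR}
    (heps : kpEps D A hq hA hqR i₀ = 12)
    (hz₁ : z ∈ (kpS D A hq hA hqR).Ov)
    (hz₂ : atkinLehner D z / algebraMap Qb (modularFunctionFieldBar (D.Q * D.R)) (D.Q : Qb) ∈
      (kpS D A hq hA hqR).Ov)
    (hpole : NoPoleAtNode (kpSeed D A hq hA hqR haux) i₀ z)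
    (hnode : i₀.1.ord ((kpS D A hq hA hqR).red z) = 1) :
    NoDivAtNode (kpSeed D A hq hA hqR haux) i₀ z := by
  haveI := infinite_residue A
  exact (coordLoc_kp_of_eps D A hq hA hqR haux heps hz₁ hz₂ hpole hnode).ord_z_N

/-! ### the function `z = α t - (β t) ^ q` -/

/-- `w_q (α t - (β t) ^ q) = β t - (α t) ^ q`. -/
theorem atkinLehner_regZ (t : modularFunctionFieldBar D.R) :
    atkinLehner D (alphaQ D t - betaQ D t ^ D.Q) = betaQ D t - alphaQ D t ^ D.Q := by
  rw [map_sub, map_pow, atkinLehner_alphaQ, atkinLehner_betaQ]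

/-- **REG for `t`, local modular form** (`ε_{i₀} = 12` as a hypothesis): if `α t - (β t)^q` is
Gauss-integral with reduction of order `1` at the node `i₀`, `δ = (β t - (α t)^q)/q` is
Gauss-integral and `α t`, `β t` have no pole at the places of type N with node `i₀`, then `red_∞ δ`
is `≠ 0` and has a simple pole at `Frob⁻¹ i₀`. -/
theorem regLocT (haux : AuxLevelOK D.Q D.R) (t : modularFunctionFieldBar D.R)
    {i₀ : kpIota D A hq hA hqR} (heps : kpEps D A hq hA hqR i₀ = 12)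
    (hz₁ : alphaQ D t - betaQ D t ^ D.Q ∈ (kpS D A hq hA hqR).Ov)
    (hδ : (betaQ D t - alphaQ D t ^ D.Q) /
      algebraMap Qb (modularFunctionFieldBar (D.Q * D.R)) (D.Q : Qb) ∈ (kpS D A hq hA hqR).Ov)
    (hpα : NoPoleAtNode (kpSeed D A hq hA hqR haux) i₀ (alphaQ D t))
    (hpβ : NoPoleAtNode (kpSeed D A hq hA hqR haux) i₀ (betaQ D t))
    (hnode : i₀.1.ord ((kpS D A hq hA hqR).red (alphaQ D t - betaQ D t ^ D.Q)) = 1) :
    (kpS D A hq hA hqR).red ((betaQ D t - alphaQ D t ^ D.Q) /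
        algebraMap Qb (modularFunctionFieldBar (D.Q * D.R)) (D.Q : Qb)) ≠ 0 ∧
    ((frobAut (IsLocalRing.ResidueField A) D.R D.Q)⁻¹ • i₀.1).ord
      ((kpS D A hq hA hqR).red ((betaQ D t - alphaQ D t ^ D.Q) /
        algebraMap Qb (modularFunctionFieldBar (D.Q * D.R)) (D.Q : Qb))) = -1 ∧
    NoDivAtNode (kpSeed D A hq hA hqR haux) i₀ (alphaQ D t - betaQ D t ^ D.Q) := by
  have hpole : NoPoleAtNode (kpSeed D A hq hA hqR haux) i₀ (alphaQ D t - betaQ D t ^ D.Q) := by
    intro P hP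
    have h1 : 0 ≤ P.ord (alphaQ D t) := hpα P hP
    have h2 : 0 ≤ P.ord (betaQ D t) := hpβ P hP
    have hm1 : alphaQ D t ∈ P.toValuationSubring := Fermat.Agent.S24Res.mem_of_ord_nonneg P h1
    have hm2 : betaQ D t ∈ P.toValuationSubring := Fermat.Agent.S24Res.mem_of_ord_nonneg P h2
    exact Fermat.Agent.S24Res.ord_nonneg_of_mem P (sub_mem hm1 (pow_mem hm2 _))
  have hz₂ : atkinLehner D (alphaQ D t - betaQ D t ^ D.Q) /
      algebraMap Qb (modularFunctionFieldBar (D.Q * D.R)) (D.Q : Qb) ∈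
      (kpS D A hq hA hqR).Ov := by
    rw [atkinLehner_regZ]
    exact hδ
  have h1 := regLoc_red_ne D A hq hA hqR haux heps hz₁ hz₂ hpole hnode
  have h2 := regLoc_simple_pole D A hq hA hqR haux heps hz₁ hz₂ hpole hnode
  have h3 := regLoc_noDiv D A hq hA hqR haux heps hz₁ hz₂ hpole hnode
  rw [atkinLehner_regZ] at h1 h2
  exact ⟨h1, h2, h3⟩

/-! ### `q ≥ 5`, `ν₂ = ν₃ = 0`: `ε = 12` at every node -/

/-- **REG for `t`, local modular form, `q ≥ 5`, `ν₂(R) = ν₃(R) = 0`.** -/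
theorem regLocT_five (h5 : 5 ≤ D.Q) (hν₂ : nuTwo D.R = 0) (hν₃ : nuThree D.R = 0)
    (haux : AuxLevelOK D.Q D.R) (t : modularFunctionFieldBar D.R)
    {i₀ : kpIota D A hq hA hqR}
    (hz₁ : alphaQ D t - betaQ D t ^ D.Q ∈ (kpS D A hq hA hqR).Ov)
    (hδ : (betaQ D t - alphaQ D t ^ D.Q) /
      algebraMap Qb (modularFunctionFieldBar (D.Q * D.R)) (D.Q : Qb) ∈ (kpS D A hq hA hqR).Ov)
    (hpα : NoPoleAtNode (kpSeed D A hq hA hqR haux) i₀ (alphaQ D t))
    (hpβ : NoPoleAtNode (kpSeed D A hq hA hqR haux) i₀ (betaQ D t))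
    (hnode : i₀.1.ord ((kpS D A hq hA hqR).red (alphaQ D t - betaQ D t ^ D.Q)) = 1) :
    (kpS D A hq hA hqR).red ((betaQ D t - alphaQ D t ^ D.Q) /
        algebraMap Qb (modularFunctionFieldBar (D.Q * D.R)) (D.Q : Qb)) ≠ 0 ∧
    ((frobAut (IsLocalRing.ResidueField A) D.R D.Q)⁻¹ • i₀.1).ord
      ((kpS D A hq hA hqR).red ((betaQ D t - alphaQ D t ^ D.Q) /
        algebraMap Qb (modularFunctionFieldBar (D.Q * D.R)) (D.Q : Qb))) = -1 ∧
    NoDivAtNode (kpSeed D A hq hA hqR haux) i₀ (alphaQ D t - betaQ D t ^ D.Q) :=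
  regLocT D A hq hA hqR haux t (r38_kpEps_eq_twelve D A hq hA hqR h5 hν₂ hν₃ i₀)
    hz₁ hδ hpα hpβ hnode

end Fermat.Agent.S36Reg
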