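/-
S36 (cluster G), block W-P, seat REG, LOCAL modular instance, ALL primes `q` (helper26).

`ε_i = 12` at every node of `X₀(q R)` mod `q` when `ν₂(R) = ν₃(R) = 0` and the auxiliary level
condition holds: `q ≥ 5` is `r38_kpEps_eq_twelve` (helper27), `q = 2, 3` is `hno23_ord_ssFun`
(helper27, `S36/Genus/Hno23.lean`).  Hence the local regularity statement `regLocT` for every `q`.

* `kpEps_eq_twelve_all` : `AuxLevelOK q R`, `ν₂(R) = ν₃(R) = 0`  ⟹  `ε_i = 12` for all `i`;
* `regLocT_all`          : `regLocT` with `ε_{i₀} = 12` discharged.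
-/
import Mathlib
import Fermat.Agent.S36.Reg.CoordLocMod
import Fermat.Agent.S36.Genus.Hno23

set_option autoImplicit false
set_option linter.style.haveILetI false
set_option linter.unusedSectionVars false
set_option linter.unusedVariables false
set_option synthInstance.maxHeartbeats 400000

noncomputable section
attribute [local instance 10000] SubalgebraClass.toAlgebra HahnSeries.powerSeriesAlgebra

namespace Fermat.Agent.S36Reg

open IntermediateField ModularCurve AlgebraicCurve Fermat.Agent.F3 Fermat.Agent.F3G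
  Fermat.Agent.GaussInt Fermat.Agent.AtkinLehner Fermat.Agent.Deuring Fermat.Agent.RR
  Fermat.Agent.BadRed Fermat.Agent.EKp Fermat.Agent.PeuD Fermat.Agent.R38

local notation "Qb" => AlgebraicClosure ℚ

attribute [local instance] Fermat.Agent.BadRed.fwFintype

variable (D : ALData) [NeZero D.Q] [NeZero D.R] [NeZero (D.Q * D.R)]
  (A : ValuationSubring Qb) (hq : D.Q.Prime) (hA : A.LiesOverPrime D.Q) (hqR : ¬ D.Q ∣ D.R)
  [Fact D.Q.Prime] [CharP (IsLocalRing.ResidueField A) D.Q]
  [PerfectRing (IsLocalRing.ResidueField A) D.Q]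

/-- **`ε = 12` at every node, every prime `q`** (`ν₂(R) = ν₃(R) = 0`, auxiliary level). -/
theorem kpEps_eq_twelve_all (haux : AuxLevelOK D.Q D.R) (hν₂ : nuTwo D.R = 0)
    (hν₃ : nuThree D.R = 0) (i : kpIota D A hq hA hqR) : kpEps D A hq hA hqR i = 12 := by
  by_cases h5 : 5 ≤ D.Q
  · exact r38_kpEps_eq_twelve D A hq hA hqR h5 hν₂ hν₃ i
  · have hq23 : D.Q = 2 ∨ D.Q = 3 := by
      have h2 := hq.two_le
      have h4 : D.Q ≠ 4 := by
        intro h
        rw [h] at hq
        exact absurd hq (by decide)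
      omega
    have h := Fermat.Agent.S36G.hno23_ord_ssFun D.R hq23 hqR haux.1 haux.2
      (fun _ => hν₂) (fun _ => hν₃) hA i.1 ((kpS D A hq hA hqR).red (fwU D))
      (fw_coe_red_uF D A hq hA (kpS D A hq hA hqR) (isGaussSetup_gaussSetupBad D hq hqR A hA))
      i.2
    have hc := kpEps_cast D A hq hA hqR i
    rw [h] at hc
    exact_mod_cast hc

/-- **REG for `t`, local modular form, every prime `q`** (`ν₂(R) = ν₃(R) = 0`). -/
theorem regLocT_all (haux : AuxLevelOK D.Q D.R) (hν₂ : nuTwo D.R = 0) (hν₃ : nuThree D.R = 0)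
    (t : modularFunctionFieldBar D.R) {i₀ : kpIota D A hq hA hqR}
    (hz₁ : alphaQ D t - betaQ D t ^ D.Q ∈ (kpS D A hq hA hqR).Ov)
    (hδ : (betaQ D t - alphaQ D t ^ D.Q) /
      algebraMap Qb (modularFunctionFieldBar (D.Q * D.R)) (D.Q : Qb) ∈ (kpS D A hq hA hqR).Ov)
    (hpα : NoPoleAtNode (kpSeed D A hq hA hqR haux) i₀ (alphaQ D t))
    (hpβ : NoPoleAtNode (kpSeed D A hq hA hqR haux) i₀ (betaQ D t))
    (hnode : i₀.1.ord ((kpS D A hq hA hqR).red (alphaQ D t - betaQ D t ^ D.Q)) = 1) :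
    (kpS D A hq hA hqR).red ((betaQ D t - alphaQ D t ^ D.Q) /
        algebraMap Qb (modularFunctionFieldBar (D.Q * D.R)) (D.Q : Qb)) ≠ 0 ∧
    ((frobAut (IsLocalRing.ResidueField A) D.R D.Q)⁻¹ • i₀.1).ord
      ((kpS D A hq hA hqR).red ((betaQ D t - alphaQ D t ^ D.Q) /
        algebraMap Qb (modularFunctionFieldBar (D.Q * D.R)) (D.Q : Qb))) = -1 ∧
    NoDivAtNode (kpSeed D A hq hA hqR haux) i₀ (alphaQ D t - betaQ D t ^ D.Q) :=
  regLocT D A hq hA hqR haux t (kpEps_eq_twelve_all D A hq hA hqR haux hν₂ hν₃ i₀)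
    hz₁ hδ hpα hpβ hnode

end Fermat.Agent.S36Reg
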