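import Mathlib
import Fermat.Agent.S24.LocalDiff
import Fermat.Agent.S24.Residue
import Fermat.Agent.Lib.RR.SepLaurent

set_option autoImplicit false
set_option linter.style.haveILetI false
set_option linter.unusedSectionVars false

/-!
# S36 (G wave), seat REG-ABS, part 1: the derivation `d/dϖ` at a place, ANY characteristic

`K` algebraically closed (any characteristic), `F / K` a function field in one variable
(`IsFunctionFieldOver K F x`), `v` a place of `F`, `ϖ` a uniformizer at `v`.

* `sepRatFunc`     : `F / K(ϖ)` is separable (characteristic `p`: `ϖ` is not a `p`-th power,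
                     `Lib/RR/SepLaurent`);
* `spanD_eq_top`, `dUnif_ne_zero` : `Ω[F/K] = F · dϖ`, `dϖ ≠ 0`;
* `exists_der`     : there is a `K`-derivation `δ : F → F` with `δ ϖ = 1`;
* `der_mem`        : every `K`-derivation `δ` of `F` with `δ ϖ = 1` preserves the valuation ring `O_v`
                     (characteristic zero: `S24Diff.derivation_mem`);
* `der_eq_smul`    : for a `K`-derivation `D : F → M` into an `F`-module and `δ ϖ = 1`:
                     `D f = δ f • D ϖ`  (uniqueness of the extension of `d/dϖ`);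
* `ord_der_ge`     : `ord_v (δ f) ≥ ord_v f - 1`;
* `ord_der_eq`     : `ord_v (δ f) = ord_v f - 1` if `ord_v f` is not `0` in `K`.

Everything is generic (no modular input).  Namespace `Fermat.Agent.S36Reg`.
-/

noncomputable section
attribute [local instance 10000] SubalgebraClass.toAlgebra HahnSeries.powerSeriesAlgebra

open KaehlerDifferential IntermediateField AlgebraicCurve Polynomial IsDedekindDomain

namespace Fermat.Agent.S36Reg

open Fermat.Agent.S24Diff

variable {K F : Type*} [Field K] [Field F] [Algebra K F]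

/-- a uniformizer is not a `p`-th power (`p ≥ 2`). -/
theorem pow_ne_of_ord_eq_one (v : Place K F) {t : F} (ht : v.ord t = 1) {p : ℕ} (hp : 2 ≤ p)
    (y : F) : y ^ p ≠ t := by
  intro h
  have h1 : v.ord (y ^ p) = (p : ℤ) * v.ord y := by
    have := v.ord_zpow y (p : ℤ)
    rwa [zpow_natCast] at this
  rw [h, ht] at h1
  have h2 : (p : ℤ) ∣ 1 := ⟨v.ord y, h1⟩
  have h3 : (p : ℤ) ≤ 1 := Int.le_of_dvd one_pos h2
  omega

section Sep

variable [IsAlgClosed K] {x : F}

/-- the uniformizer is transcendental. -/
theorem transcendental_unif (v : Place K F) (ϖ : v.toValuationSubring) (hϖ : Irreducible ϖ) :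
    Transcendental K (ϖ : F) :=
  transcendental_of_ord_ne_zero' v (by rw [v.ord_coe_irreducible hϖ]; exact one_ne_zero)

/-- characteristic `p`: `F` is separable over `K(ϖ)`, `ϖ` a uniformizer. -/
theorem sepRatFunc_charP (p : ℕ) [Fact p.Prime] [CharP K p] (h : IsFunctionFieldOver K F x)
    (v : Place K F) (ϖ : v.toValuationSubring) (hϖ : Irreducible ϖ) :
    letI := ratFuncAlgebra (ϖ : F) (transcendental_unif v ϖ hϖ)
    Algebra.IsSeparable (RatFunc K) F := by
  have hπtr := transcendental_unif v ϖ hϖ
  letI := ratFuncAlgebra (ϖ : F) hπtr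
  have h' := h.of_transcendental hπtr
  haveI : FiniteDimensional K⟮(ϖ : F)⟯ F := h'.finite
  have hj : ∀ y : F, y ^ p ≠ (ϖ : F) :=
    pow_ne_of_ord_eq_one v (v.ord_coe_irreducible hϖ) (Fact.out : p.Prime).two_le
  haveI : Algebra.IsSeparable K⟮(ϖ : F)⟯ F :=
    ⟨fun a => Fermat.Agent.RRSep.isSeparable_of_isAlgebraic_adjoin p hj
      (Algebra.IsAlgebraic.isAlgebraic (R := K⟮(ϖ : F)⟯) a)⟩
  exact Algebra.IsSeparable.of_equiv_equiv (A₁ := K⟮(ϖ : F)⟯) (B₁ := F) (A₂ := RatFunc K) (B₂ := F)
    (RatFunc.algEquivOfTranscendental (ϖ : F) hπtr).symm.toRingEquiv (RingEquiv.refl F)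
    (by
      ext u
      simp only [RingHom.coe_comp, Function.comp_apply, RingEquiv.coe_ringHom_refl,
        RingHom.id_comp]
      have := ratFuncAlgebra_algebraMap_eq hπtr
        ((RatFunc.algEquivOfTranscendental (ϖ : F) hπtr).symm u)
      rw [AlgEquiv.apply_symm_apply] at this
      exact this)

/-- any characteristic: `F` is separable over `K(ϖ)`, `ϖ` a uniformizer. -/
theorem sepRatFunc (h : IsFunctionFieldOver K F x)
    (v : Place K F) (ϖ : v.toValuationSubring) (hϖ : Irreducible ϖ) :
    letI := ratFuncAlgebra (ϖ : F) (transcendental_unif v ϖ hϖ)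
    Algebra.IsSeparable (RatFunc K) F := by
  obtain ⟨p, hp⟩ := CharP.exists K
  rcases CharP.char_is_prime_or_zero K p with hpr | h0
  · haveI : Fact p.Prime := ⟨hpr⟩
    exact sepRatFunc_charP p h v ϖ hϖ
  · subst h0
    haveI : CharZero K := CharP.charP_to_charZero K
    have hπtr := transcendental_unif v ϖ hϖ
    letI := ratFuncAlgebra (ϖ : F) hπtr
    haveI := ratFuncAlgebra_isScalarTower hπtr
    haveI : FiniteDimensional (RatFunc K) F :=
      (finite_ratFunc_iff hπtr).mpr (h.of_transcendental hπtr).finite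
    infer_instance

/-- `Ω[F/K]` is spanned by `dϖ`, `ϖ` a uniformizer (any characteristic). -/
theorem spanD_eq_top (h : IsFunctionFieldOver K F x)
    (v : Place K F) (ϖ : v.toValuationSubring) (hϖ : Irreducible ϖ) :
    Submodule.span F {KaehlerDifferential.D K F (ϖ : F)} = ⊤ := by
  have hy := transcendental_unif v ϖ hϖ
  letI := ratFuncAlgebra (ϖ : F) hy
  haveI := ratFuncAlgebra_isScalarTower hy
  haveI : FiniteDimensional (RatFunc K) F :=
    (finite_ratFunc_iff hy).mpr (h.of_transcendental hy).finite
  haveI : Algebra.IsSeparable (RatFunc K) F := sepRatFunc h v ϖ hϖ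
  haveI : Algebra.FormallyEtale (RatFunc K) F := Algebra.FormallyEtale.of_isSeparable _ _
  let e := KaehlerDifferential.tensorKaehlerEquivOfFormallyEtale K (RatFunc K) F
  rw [eq_top_iff]
  intro ω _
  obtain ⟨t, rfl⟩ := e.surjective ω
  induction t using TensorProduct.induction_on with
  | zero => simp
  | add a b ha hb => rw [map_add]; exact Submodule.add_mem _ (ha trivial) (hb trivial)
  | tmul f η =>
    have hη : η ∈ Submodule.span (RatFunc K) {KaehlerDifferential.D K (RatFunc K) RatFunc.X} := by
      rw [span_D_ratFunc_X]; trivial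
    obtain ⟨c, rfl⟩ := Submodule.mem_span_singleton.mp hη
    have : e (f ⊗ₜ[RatFunc K] (c • KaehlerDifferential.D K (RatFunc K) RatFunc.X))
        = (f * algebraMap (RatFunc K) F c) • KaehlerDifferential.D K F (ϖ : F) := by
      rw [KaehlerDifferential.tensorKaehlerEquivOfFormallyEtale_apply,
        KaehlerDifferential.mapBaseChange_tmul, map_smul, KaehlerDifferential.map_D,
        ratFuncAlgebra_X hy, mul_smul, algebraMap_smul]
    rw [this]
    exact Submodule.smul_mem _ _ (Submodule.mem_span_singleton_self _)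

/-- `dϖ ≠ 0` for a uniformizer `ϖ` (any characteristic). -/
theorem dUnif_ne_zero (h : IsFunctionFieldOver K F x)
    (v : Place K F) (ϖ : v.toValuationSubring) (hϖ : Irreducible ϖ) :
    KaehlerDifferential.D K F (ϖ : F) ≠ 0 := by
  have hy := transcendental_unif v ϖ hϖ
  letI := ratFuncAlgebra (ϖ : F) hy
  haveI := ratFuncAlgebra_isScalarTower hy
  haveI : FiniteDimensional (RatFunc K) F :=
    (finite_ratFunc_iff hy).mpr (h.of_transcendental hy).finite
  haveI : Algebra.IsSeparable (RatFunc K) F := sepRatFunc h v ϖ hϖ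
  haveI : Algebra.FormallyEtale (RatFunc K) F := Algebra.FormallyEtale.of_isSeparable _ _
  let e := KaehlerDifferential.tensorKaehlerEquivOfFormallyEtale K (RatFunc K) F
  have h1 : e ((1 : F) ⊗ₜ[RatFunc K] KaehlerDifferential.D K (RatFunc K) RatFunc.X)
      = KaehlerDifferential.D K F (ϖ : F) := by
    rw [KaehlerDifferential.tensorKaehlerEquivOfFormallyEtale_apply,
      KaehlerDifferential.mapBaseChange_tmul, KaehlerDifferential.map_D,
      ratFuncAlgebra_X hy, one_smul]
  rw [← h1]
  intro h0
  have h2 : (1 : F) ⊗ₜ[RatFunc K] KaehlerDifferential.D K (RatFunc K) RatFunc.X = 0 := by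
    apply e.injective
    rw [h0, map_zero]
  have h3 := Module.Flat.tensorProduct_mk_injective (RatFunc K) Ω[RatFunc K⁄K] F
  have h4 : TensorProduct.mk (RatFunc K) F Ω[RatFunc K⁄K] 1
      (KaehlerDifferential.D K (RatFunc K) RatFunc.X) = 0 := h2
  rw [← map_zero (TensorProduct.mk (RatFunc K) F Ω[RatFunc K⁄K] 1)] at h4
  exact D_ratFunc_X_ne_zero (h3 h4)

/-- the derivation `d/dϖ` of `F`, `ϖ` a uniformizer (any characteristic). -/
def derUnif (h : IsFunctionFieldOver K F x)
    (v : Place K F) (ϖ : v.toValuationSubring) (hϖ : Irreducible ϖ) : Derivation K F F :=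
  derivOf (ϖ : F) (dUnif_ne_zero h v ϖ hϖ) (spanD_eq_top h v ϖ hϖ)

theorem derUnif_self (h : IsFunctionFieldOver K F x)
    (v : Place K F) (ϖ : v.toValuationSubring) (hϖ : Irreducible ϖ) :
    derUnif h v ϖ hϖ (ϖ : F) = 1 :=
  derivOf_self _ _ _

theorem derUnif_smul (h : IsFunctionFieldOver K F x)
    (v : Place K F) (ϖ : v.toValuationSubring) (hϖ : Irreducible ϖ) (f : F) :
    derUnif h v ϖ hϖ f • KaehlerDifferential.D K F (ϖ : F) = KaehlerDifferential.D K F f :=
  derivOf_smul _ _ _ f

/-- there is a `K`-derivation `δ` of `F` with `δ ϖ = 1`. -/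
theorem exists_der (h : IsFunctionFieldOver K F x)
    (v : Place K F) (ϖ : v.toValuationSubring) (hϖ : Irreducible ϖ) :
    ∃ δ : Derivation K F F, δ (ϖ : F) = 1 :=
  ⟨derUnif h v ϖ hϖ, derUnif_self h v ϖ hϖ⟩

/-- a relation `d f = c • d g` between Kähler differentials is inherited by every derivation. -/
theorem der_eq_of_D_eq {f g c : F}
    (hc : c • KaehlerDifferential.D K F g = KaehlerDifferential.D K F f)
    {M : Type*} [AddCommGroup M] [Module K M] [Module F M] [IsScalarTower K F M]
    (D : Derivation K F M) : D f = c • D g := by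
  have h1 : D.liftKaehlerDifferential (KaehlerDifferential.D K F f) = D f :=
    Derivation.liftKaehlerDifferential_comp_D D f
  have h2 : D.liftKaehlerDifferential (KaehlerDifferential.D K F g) = D g :=
    Derivation.liftKaehlerDifferential_comp_D D _
  rw [← h1, ← hc, map_smul, h2]

/-- **uniqueness**: a `K`-derivation `D : F → M` into an `F`-module is `f ↦ δ f • D ϖ` for every
derivation `δ` of `F` with `δ ϖ = 1`. -/
theorem der_eq_smul (h : IsFunctionFieldOver K F x)
    (v : Place K F) (ϖ : v.toValuationSubring) (hϖ : Irreducible ϖ)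
    {M : Type*} [AddCommGroup M] [Module K M] [Module F M] [IsScalarTower K F M]
    (D : Derivation K F M) (δ : Derivation K F F) (hδ : δ (ϖ : F) = 1) (f : F) :
    D f = δ f • D (ϖ : F) := by
  have hmem : KaehlerDifferential.D K F f ∈
      Submodule.span F {KaehlerDifferential.D K F (ϖ : F)} := by
    rw [spanD_eq_top h v ϖ hϖ]; trivial
  obtain ⟨c, hc⟩ := Submodule.mem_span_singleton.mp hmem
  have hδc : δ f = c := by
    have := der_eq_of_D_eq hc δ
    rw [hδ, smul_eq_mul, mul_one] at this
    exact this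
  rw [hδc]
  exact der_eq_of_D_eq hc D

end Sep

section Mem

variable [IsAlgClosed K] {x : F}

/-- uniform bound for the pole order of `δ` on `O_v` (any characteristic). -/
theorem exists_uniform_pow_unif (h : IsFunctionFieldOver K F x) (v : Place K F)
    (ϖ : v.toValuationSubring) (hϖ : Irreducible ϖ) (δ : Derivation K F F)
    (hδ : δ (ϖ : F) = 1) :
    ∃ N : ℕ, ∀ f, f ∈ v.toValuationSubring → ((ϖ : F) ^ N) * δ f ∈ v.toValuationSubring := by
  have hπtr : Transcendental K (ϖ : F) := transcendental_unif v ϖ hϖ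
  have h' := h.of_transcendental hπtr
  letI := polyAlgebra K (ϖ : F)
  letI := ratFuncAlgebra (ϖ : F) hπtr
  haveI := polyAlgebra_isScalarTower (K := K) (ϖ : F)
  haveI := ratFuncAlgebra_isScalarTower_poly hπtr
  haveI := ratFuncAlgebra_isScalarTower hπtr
  haveI : FiniteDimensional (RatFunc K) F := (finite_ratFunc_iff hπtr).mpr h'.finite
  haveI : Algebra.IsSeparable (RatFunc K) F := sepRatFunc h v ϖ hϖ
  haveI : IsDedekindDomain (integralClosure K[X] F) :=
    integralClosure.isDedekindDomain K[X] (RatFunc K) F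
  haveI : IsFractionRing (integralClosure K[X] F) F :=
    integralClosure.isFractionRing_of_finite_extension (RatFunc K) F
  haveI : Module.Finite K[X] (integralClosure K[X] F) :=
    IsIntegralClosure.finite K[X] (RatFunc K) F (integralClosure K[X] F)
  haveI : IsScalarTower K (integralClosure K[X] F) F := inferInstance
  -- polynomials in `ϖ` lie in the valuation ring
  have hR : ∀ p : K[X], algebraMap K[X] F p ∈ v.toValuationSubring := by
    intro p
    have : algebraMap K[X] F p = ((Polynomial.aeval ϖ p : v.toValuationSubring) : F) := by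
      rw [polyAlgebra_algebraMap]
      exact (Polynomial.aeval_algebraMap_apply F ϖ p)
    rw [this]
    exact (Polynomial.aeval ϖ p : v.toValuationSubring).2
  have hB : ∀ b : integralClosure K[X] F,
      algebraMap (integralClosure K[X] F) F b ∈ v.toValuationSubring :=
    fun b => Fermat.Agent.S24Bridge.mem_of_isIntegral v hR b.2
  obtain ⟨P, hP⟩ := Fermat.Agent.S24Bridge.exists_eq_ofHeightOneSpectrum v hB
  -- derivative of a polynomial in `ϖ`
  have hδR : ∀ p : K[X], δ (algebraMap K[X] F p) ∈ v.toValuationSubring := by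
    intro p
    rw [polyAlgebra_algebraMap, Derivation.map_aeval, hδ, smul_eq_mul, mul_one]
    exact hR (Polynomial.derivative p)
  -- finitely many generators
  obtain ⟨S, hS⟩ := (Module.Finite.fg_top : (⊤ : Submodule K[X] (integralClosure K[X] F)).FG)
  choose Nf hNf using fun g : F => exists_pow_mul_mem v ϖ hϖ g
  let N : ℕ := S.sup fun b => Nf (δ (b : F))
  have hgen : ∀ b ∈ S, ((ϖ : F) ^ N) * δ (b : F) ∈ v.toValuationSubring := fun b hb =>
    hNf _ N (Finset.le_sup (f := fun b : integralClosure K[X] F => Nf (δ (b : F))) hb)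
  have hπN : ((ϖ : F) ^ N) ∈ v.toValuationSubring := pow_mem ϖ.2 N
  have hall : ∀ b : integralClosure K[X] F,
      ((ϖ : F) ^ N) * δ (b : F) ∈ v.toValuationSubring := by
    intro b
    have hb : b ∈ Submodule.span K[X] (S : Set (integralClosure K[X] F)) := by
      rw [hS]; trivial
    induction hb using Submodule.span_induction with
    | mem b hb => exact hgen b hb
    | zero => simp [v.toValuationSubring.zero_mem]
    | add a b _ _ ha hb =>
      have : ((a + b : integralClosure K[X] F) : F) = (a : F) + (b : F) := rfl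
      rw [this, map_add, mul_add]
      exact v.toValuationSubring.add_mem _ _ ha hb
    | smul p b _ hb =>
      have : ((p • b : integralClosure K[X] F) : F) = algebraMap K[X] F p * (b : F) := by
        rw [Algebra.smul_def]; rfl
      rw [this, Derivation.leibniz, smul_eq_mul, smul_eq_mul, mul_add]
      refine v.toValuationSubring.add_mem _ _ ?_ ?_
      · have : (ϖ : F) ^ N * (algebraMap K[X] F p * δ (b : F))
            = algebraMap K[X] F p * ((ϖ : F) ^ N * δ (b : F)) := by ring
        rw [this]
        exact v.toValuationSubring.mul_mem _ _ (hR p) hb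
      · exact v.toValuationSubring.mul_mem _ _ hπN
          (v.toValuationSubring.mul_mem _ _ (hB b) (hδR p))
  refine ⟨N, fun f hf => ?_⟩
  have hf' : f ∈ (Place.ofHeightOneSpectrum (K := K) (F := F) P).toValuationSubring := hP ▸ hf
  obtain ⟨b, s, hs, rfl⟩ := Fermat.Agent.S24Bridge.exists_div_of_mem P hf'
  have hsinv : (algebraMap (integralClosure K[X] F) F s)⁻¹ ∈ v.toValuationSubring := by
    have h1 : (algebraMap (integralClosure K[X] F) F s)⁻¹ ∈
        (Place.ofHeightOneSpectrum (K := K) (F := F) P).toValuationSubring := by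
      rw [Fermat.Agent.S24Bridge.mem_ofHeightOneSpectrum_iff, map_inv₀,
        HeightOneSpectrum.valuation_of_algebraMap,
        (HeightOneSpectrum.intValuation_eq_one_iff (v := P)).mpr hs, inv_one]
    exact hP ▸ h1
  rw [Derivation.leibniz_div, smul_eq_mul, smul_eq_mul, smul_eq_mul]
  have : (ϖ : F) ^ N * ((algebraMap (integralClosure K[X] F) F s)⁻¹ ^ 2 *
      (algebraMap (integralClosure K[X] F) F s * δ (algebraMap (integralClosure K[X] F) F b) -
        algebraMap (integralClosure K[X] F) F b * δ (algebraMap (integralClosure K[X] F) F s)))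
      = (algebraMap (integralClosure K[X] F) F s)⁻¹ ^ 2 *
        (algebraMap (integralClosure K[X] F) F s *
            ((ϖ : F) ^ N * δ (algebraMap (integralClosure K[X] F) F b)) -
          algebraMap (integralClosure K[X] F) F b *
            ((ϖ : F) ^ N * δ (algebraMap (integralClosure K[X] F) F s))) := by ring
  rw [this]
  exact v.toValuationSubring.mul_mem _ _ (pow_mem hsinv 2)
    (sub_mem (v.toValuationSubring.mul_mem _ _ (hB s) (hall b))
      (v.toValuationSubring.mul_mem _ _ (hB b) (hall s)))

/-- residue field `K`: every element of `O_v` is a constant plus a multiple of `ϖ`. -/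
theorem exists_residue_unif (h : IsFunctionFieldOver K F x) (v : Place K F)
    (ϖ : v.toValuationSubring) (hϖ : Irreducible ϖ) :
    ∀ f, f ∈ v.toValuationSubring →
      ∃ a : K, ∃ g, g ∈ v.toValuationSubring ∧ f = algebraMap K F a + (ϖ : F) * g := by
  intro f hf
  obtain ⟨a, ha⟩ := Fermat.Agent.S24Res.exists_sub_mem_maximalIdeal h v ⟨f, hf⟩
  rw [hϖ.maximalIdeal_eq, Ideal.mem_span_singleton'] at ha
  obtain ⟨g, hg⟩ := ha
  refine ⟨a, g, g.2, ?_⟩
  have h5 : (g : F) * (ϖ : F) = f - algebraMap K F a := congrArg (Subtype.val) hg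
  have h2 : f = algebraMap K F a + (g : F) * (ϖ : F) := by
    rw [h5]; ring
  rw [h2]; ring

/-- **any characteristic**: a `K`-derivation `δ` of `F` with `δ ϖ = 1` (`ϖ` a uniformizer at `v`)
preserves the valuation ring of `v`. -/
theorem der_mem (h : IsFunctionFieldOver K F x) (v : Place K F)
    (ϖ : v.toValuationSubring) (hϖ : Irreducible ϖ) (δ : Derivation K F F)
    (hδ : δ (ϖ : F) = 1) :
    ∀ f, f ∈ v.toValuationSubring → δ f ∈ v.toValuationSubring := by
  obtain ⟨N, hN⟩ := exists_uniform_pow_unif h v ϖ hϖ δ hδ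
  exact derivation_mem_of_residue v ϖ δ hδ (exists_residue_unif h v ϖ hϖ) N hN

/-- `δ z = w ϖ^(ord z - 1)` with `w ∈ O_v` (so `ord (δ z) ≥ ord z - 1` if `δ z ≠ 0`). -/
theorem der_eq_mul_zpow (h : IsFunctionFieldOver K F x) (v : Place K F)
    (ϖ : v.toValuationSubring) (hϖ : Irreducible ϖ) (δ : Derivation K F F)
    (hδ : δ (ϖ : F) = 1) {z : F} (hz0 : z ≠ 0) :
    ∃ w : v.toValuationSubring, δ z = (w : F) * (ϖ : F) ^ (v.ord z - 1) ∧
      (((v.ord z : ℤ) : K) ≠ 0 → IsUnit w) := by
  have hint := der_mem h v ϖ hϖ δ hδ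
  obtain ⟨u, hu⟩ := v.exists_unit_mul_zpow hz0 hϖ
  set n := v.ord z with hn
  let δu : v.toValuationSubring :=
    ⟨δ ((u : v.toValuationSubring) : F), hint _ (u : v.toValuationSubring).2⟩
  let w : v.toValuationSubring := ϖ * δu + (algebraMap K v.toValuationSubring (n : K)) * u
  have hϖF : ((ϖ : v.toValuationSubring) : F) ≠ 0 := by
    simpa [ne_eq, ZeroMemClass.coe_eq_zero] using hϖ.ne_zero
  refine ⟨w, ?_, ?_⟩
  · rw [hu, Derivation.leibniz, Derivation.leibniz_zpow, hδ]
    simp only [w, δu, smul_eq_mul, mul_one, zsmul_eq_mul]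
    push_cast
    have hpow : ((ϖ : v.toValuationSubring) : F) ^ n
        = ((ϖ : v.toValuationSubring) : F) ^ (n - 1) * (ϖ : F) := by
      rw [← zpow_add_one₀ hϖF]; ring_nf
    rw [hpow]
    have hcast : ((algebraMap K v.toValuationSubring (n : K) : v.toValuationSubring) : F)
        = (n : F) := by
      rw [Place.coe_algebraMap]; simp
    rw [hcast]
    ring
  · intro hnK
    have hunit : IsUnit ((algebraMap K v.toValuationSubring (n : K)) *
        (u : v.toValuationSubring)) :=
      ((IsUnit.mk0 _ hnK).map (algebraMap K v.toValuationSubring)).mul u.isUnit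
    rw [← IsLocalRing.notMem_maximalIdeal]
    intro hmem
    have h1 : ϖ * δu ∈ IsLocalRing.maximalIdeal v.toValuationSubring :=
      Ideal.mul_mem_right _ _ ((IsLocalRing.mem_maximalIdeal _).mpr hϖ.not_isUnit)
    have h2 : (algebraMap K v.toValuationSubring (n : K)) * (u : v.toValuationSubring)
        ∈ IsLocalRing.maximalIdeal v.toValuationSubring := by
      have : (algebraMap K v.toValuationSubring (n : K)) * (u : v.toValuationSubring)
          = w - ϖ * δu := by simp [w]
      rw [this]
      exact Ideal.sub_mem _ hmem h1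
    exact (IsLocalRing.mem_maximalIdeal _).mp h2 hunit

/-- `ord (δ z) = ord z - 1` when `ord z` is not zero in `K` (any characteristic). -/
theorem ord_der_eq (h : IsFunctionFieldOver K F x) (v : Place K F)
    (ϖ : v.toValuationSubring) (hϖ : Irreducible ϖ) (δ : Derivation K F F)
    (hδ : δ (ϖ : F) = 1) {z : F} (hz : ((v.ord z : ℤ) : K) ≠ 0) :
    v.ord (δ z) = v.ord z - 1 := by
  have hz0 : z ≠ 0 := by
    rintro rfl
    apply hz
    simp
  obtain ⟨w, hw, hwu⟩ := der_eq_mul_zpow h v ϖ hϖ δ hδ hz0
  have hu := hwu hz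
  rw [hw]
  have := v.ord_unit_smul_zpow hu.unit hϖ (v.ord z - 1)
  rwa [IsUnit.unit_spec] at this

end Mem

end Fermat.Agent.S36Reg
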