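import Mathlib
import Fermat.Agent.S36.Reg.DerP

set_option autoImplicit false
set_option linter.style.haveILetI false
set_option linter.unusedSectionVars false

/-!
# S36 (G wave), seat REG-ABS, part 2: the abstract regularity statement `(REG_t)`

Design: helper45's fix of `W-P` (note "uniformiser t + (KC_t) + (REG_t)", tested by helper53 and
helper38).  Everything here is generic; the modular layer supplies the hypotheses.

Setting: `k` algebraically closed (characteristic `q` in the application), `Fk / k` a function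
field in one variable (the reduction of `X₀(M₀)`), `P` a place of `Fk`, `t ∈ Fk` a uniformizer at
`P`, `L ⊇ Fk` a field with a `k`-derivation `θ : Fk → L` (`L = k((x))`, `θ = x d/dx`), `θ ≠ 0`.

* `regAbs_not_mem` : if `dl ∈ Fk` satisfies `θ dl = (θ t)^q - t^(q-1) θ t`
  (the reduction of `δ = (t(qz) - t(z)^q)/q`), and `(θ t)^((q-1) m) = w ∈ Fk` with `ord_P w < 0`
  (`m = 6`, `w = Ḡ6^(q-1) / ssFun`), then `dl` is NOT regular at `P`.
* `regAbs_unit` : if moreover `dl (t^n - t) = -(R0 + t E)` with `R0, E` regular at `P`, `n ≥ 2`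
  (the reduction of `(KC_t)` at `v_∞`, `n = q²`), then `R0` is a unit at `P`:  `c = R0(P) ≠ 0`.
* `regAbs_const` : the same with the constant `c ∈ k`: `∃ c ≠ 0, ord_P (R0 - c) > 0`.
* `regAbs_poly` : polynomial form, `dl (t^n - t) = - R(t^q)` with `R ∈ O_P[Y]`.
-/

noncomputable section
attribute [local instance 10000] SubalgebraClass.toAlgebra HahnSeries.powerSeriesAlgebra

open AlgebraicCurve Polynomial

namespace Fermat.Agent.S36Reg

open Fermat.Agent.S24Diff

variable {k Fk : Type*} [Field k] [Field Fk] [Algebra k Fk]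

/-- an element of order `1` is a uniformizer. -/
theorem irreducible_of_ord_eq_one (P : Place k Fk) {t : Fk} (ht : P.ord t = 1) :
    ∃ ϖ : P.toValuationSubring, Irreducible ϖ ∧ (ϖ : Fk) = t := by
  obtain ⟨π, hπ⟩ := IsDiscreteValuationRing.exists_irreducible P.toValuationSubring
  have ht0 : t ≠ 0 := by
    rintro rfl
    simp at ht
  obtain ⟨u, hu⟩ := P.exists_unit_mul_zpow ht0 hπ
  rw [ht, zpow_one] at hu
  refine ⟨(u : P.toValuationSubring) * π, ?_, ?_⟩
  · exact (irreducible_isUnit_mul u.isUnit).mpr hπ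
  · rw [hu]; rfl

section Main

variable [IsAlgClosed k] {x : Fk}

/-- **(REG_t), abstract core.**  `dl` is not regular at `P`. -/
theorem regAbs_not_mem (h : IsFunctionFieldOver k Fk x) (P : Place k Fk) {t : Fk}
    (ht : P.ord t = 1)
    {L : Type*} [Field L] [Algebra k L] [Algebra Fk L] [IsScalarTower k Fk L]
    (θ : Derivation k Fk L) {f₀ : Fk} (hθ : θ f₀ ≠ 0)
    (q m : ℕ) (hq : 1 ≤ q) {dl : Fk}
    (hid : θ dl = (θ t) ^ q - algebraMap Fk L (t ^ (q - 1)) * θ t)
    {w : Fk} (hw : algebraMap Fk L w = (θ t) ^ ((q - 1) * m)) (hwP : P.ord w < 0) :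
    dl ∉ P.toValuationSubring := by
  intro hdl
  obtain ⟨ϖ, hϖ, rfl⟩ := irreducible_of_ord_eq_one P ht
  set δ := derUnif h P ϖ hϖ with hδdef
  have hδ : δ (ϖ : Fk) = 1 := derUnif_self h P ϖ hϖ
  have hcmp : ∀ f : Fk, θ f = algebraMap Fk L (δ f) * θ (ϖ : Fk) := by
    intro f
    have := der_eq_smul h P ϖ hϖ θ δ hδ f
    rwa [Algebra.smul_def] at this
  have hθt : θ (ϖ : Fk) ≠ 0 := by
    intro h0
    apply hθ
    rw [hcmp f₀, h0, mul_zero]
  -- `(θ t)^(q-1) = δ dl + t^(q-1)`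
  have hy : (θ (ϖ : Fk)) ^ (q - 1) = algebraMap Fk L (δ dl + (ϖ : Fk) ^ (q - 1)) := by
    have h1 : algebraMap Fk L (δ dl) * θ (ϖ : Fk)
        = (θ (ϖ : Fk)) ^ q - algebraMap Fk L ((ϖ : Fk) ^ (q - 1)) * θ (ϖ : Fk) := by
      rw [← hcmp dl]; exact hid
    have h2 : (θ (ϖ : Fk)) ^ q = (θ (ϖ : Fk)) ^ (q - 1) * θ (ϖ : Fk) := by
      rw [← pow_succ]
      congr 1
      omega
    rw [h2] at h1
    have h3 : (algebraMap Fk L (δ dl) + algebraMap Fk L ((ϖ : Fk) ^ (q - 1))) * θ (ϖ : Fk)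
        = (θ (ϖ : Fk)) ^ (q - 1) * θ (ϖ : Fk) := by
      rw [add_mul, h1]; ring
    rw [map_add]
    exact (mul_right_cancel₀ hθt h3).symm
  -- `w = y ^ m`
  have hwy : w = (δ dl + (ϖ : Fk) ^ (q - 1)) ^ m := by
    apply (algebraMap Fk L).injective
    rw [hw, map_pow, ← hy, pow_mul]
  have hymem : δ dl + (ϖ : Fk) ^ (q - 1) ∈ P.toValuationSubring :=
    P.toValuationSubring.add_mem _ _ (der_mem h P ϖ hϖ δ hδ dl hdl) (pow_mem ϖ.2 _)
  have hwmem : w ∈ P.toValuationSubring := hwy ▸ pow_mem hymem m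
  have := Fermat.Agent.S24Res.ord_nonneg_of_mem P hwmem
  omega

/-- **(REG_t), abstract.**  From the reduction of `(KC_t)`:
`dl (t^n - t) = -(R0 + t E)`, `R0, E` regular at `P`  ⟹  `R0` is a unit at `P`. -/
theorem regAbs_unit (P : Place k Fk) {t : Fk} (ht : P.ord t = 1)
    {dl : Fk} (hdl : dl ∉ P.toValuationSubring)
    {n : ℕ} (hn : 2 ≤ n) {R0 E : Fk} (hR0 : R0 ∈ P.toValuationSubring)
    (hE : E ∈ P.toValuationSubring) (hrel : dl * (t ^ n - t) = -(R0 + t * E)) :
    R0 ≠ 0 ∧ P.ord R0 = 0 := by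
  obtain ⟨ϖ, hϖ, rfl⟩ := irreducible_of_ord_eq_one P ht
  have hϖF : ((ϖ : P.toValuationSubring) : Fk) ≠ 0 := by
    simpa [ne_eq, ZeroMemClass.coe_eq_zero] using hϖ.ne_zero
  -- `1 - t^(n-1)` is a unit of `O_P`
  have hu : IsUnit (1 - ϖ ^ (n - 1) : P.toValuationSubring) := by
    rw [← IsLocalRing.notMem_maximalIdeal]
    intro hmem
    have h1 : ϖ ^ (n - 1) ∈ IsLocalRing.maximalIdeal P.toValuationSubring :=
      Ideal.pow_mem_of_mem _ ((IsLocalRing.mem_maximalIdeal _).mpr hϖ.not_isUnit) _ (by omega)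
    have h2 : (1 : P.toValuationSubring) ∈ IsLocalRing.maximalIdeal P.toValuationSubring := by
      have : (1 : P.toValuationSubring) = (1 - ϖ ^ (n - 1)) + ϖ ^ (n - 1) := by ring
      rw [this]
      exact Ideal.add_mem _ hmem h1
    exact (IsLocalRing.mem_maximalIdeal _).mp h2 isUnit_one
  -- if `R0` is not a unit then `R0 = t R0'`
  by_contra hcon
  have hnu : ¬ IsUnit (⟨R0, hR0⟩ : P.toValuationSubring) := by
    intro hunit
    apply hcon
    have h0 : (⟨R0, hR0⟩ : P.toValuationSubring) ≠ 0 := hunit.ne_zero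
    refine ⟨fun h => h0 (Subtype.ext h), ?_⟩
    exact Fermat.Agent.S24Res.ord_eq_zero_of_isUnit P hunit
  have hmem : (⟨R0, hR0⟩ : P.toValuationSubring) ∈
      IsLocalRing.maximalIdeal P.toValuationSubring := hnu
  rw [hϖ.maximalIdeal_eq, Ideal.mem_span_singleton'] at hmem
  obtain ⟨g, hg⟩ := hmem
  have hg' : (g : Fk) * (ϖ : Fk) = R0 := congrArg Subtype.val hg
  apply hdl
  obtain ⟨ui, hui⟩ := hu.exists_right_inv
  have hui' : ((1 : Fk) - (ϖ : Fk) ^ (n - 1)) * (ui : Fk) = 1 := by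
    have := congrArg Subtype.val hui
    simpa using this
  have hpow : (ϖ : Fk) ^ n = (ϖ : Fk) ^ (n - 1) * (ϖ : Fk) := by
    rw [← pow_succ]; congr 1; omega
  have key : dl = ((g : Fk) + E) * (ui : Fk) := by
    have h1 : dl * (1 - (ϖ : Fk) ^ (n - 1)) * (ϖ : Fk) = ((g : Fk) + E) * (ϖ : Fk) := by
      have : dl * (1 - (ϖ : Fk) ^ (n - 1)) * (ϖ : Fk) = -(dl * ((ϖ : Fk) ^ n - (ϖ : Fk))) := by
        rw [hpow]; ring
      rw [this, hrel, ← hg']; ring
    have h2 := mul_right_cancel₀ hϖF h1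
    calc dl = dl * ((1 - (ϖ : Fk) ^ (n - 1)) * (ui : Fk)) := by rw [hui', mul_one]
      _ = dl * (1 - (ϖ : Fk) ^ (n - 1)) * (ui : Fk) := by ring
      _ = ((g : Fk) + E) * (ui : Fk) := by rw [h2]
  rw [key]
  exact P.toValuationSubring.mul_mem _ _ (P.toValuationSubring.add_mem _ _ g.2 hE) ui.2

/-- **(REG_t), abstract, value form.**  The value `c = R0(P)` is a non-zero constant. -/
theorem regAbs_const (h : IsFunctionFieldOver k Fk x)
    (P : Place k Fk) {t : Fk} (ht : P.ord t = 1)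
    {dl : Fk} (hdl : dl ∉ P.toValuationSubring)
    {n : ℕ} (hn : 2 ≤ n) {R0 E : Fk} (hR0 : R0 ∈ P.toValuationSubring)
    (hE : E ∈ P.toValuationSubring) (hrel : dl * (t ^ n - t) = -(R0 + t * E)) :
    ∃ c : k, c ≠ 0 ∧ (⟨R0, hR0⟩ - algebraMap k P.toValuationSubring c : P.toValuationSubring) ∈
      IsLocalRing.maximalIdeal P.toValuationSubring := by
  obtain ⟨hR0ne, hord⟩ := regAbs_unit P ht hdl hn hR0 hE hrel
  obtain ⟨c, hc⟩ := Fermat.Agent.S24Res.exists_sub_mem_maximalIdeal h P ⟨R0, hR0⟩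
  refine ⟨c, ?_, hc⟩
  rintro rfl
  rw [map_zero, sub_zero] at hc
  have h0 : (⟨R0, hR0⟩ : P.toValuationSubring) ≠ 0 := fun h => hR0ne (congrArg Subtype.val h)
  have hpos := (Fermat.Agent.S24Res.mem_maximalIdeal_iff_ord_pos P h0).mp hc
  have : P.ord R0 = 0 := hord
  simp only at hpos
  omega

/-- **(REG_t), abstract, polynomial form.**  `dl (t^n - t) = - R(t^e)`, `e ≥ 1`, `R` a polynomial
with coefficients regular at `P`  ⟹  the constant coefficient of `R` is a unit at `P`. -/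
theorem regAbs_poly (P : Place k Fk) {t : Fk} (ht : P.ord t = 1)
    {dl : Fk} (hdl : dl ∉ P.toValuationSubring)
    {n e : ℕ} (hn : 2 ≤ n) (he : 1 ≤ e) (R : Polynomial Fk)
    (hR : ∀ i, R.coeff i ∈ P.toValuationSubring)
    (hrel : dl * (t ^ n - t) = -(R.eval (t ^ e))) :
    R.coeff 0 ≠ 0 ∧ P.ord (R.coeff 0) = 0 := by
  have htmem : t ∈ P.toValuationSubring :=
    Fermat.Agent.S24Res.mem_of_ord_nonneg P (by rw [ht]; exact zero_le_one)
  -- `R(t^e) = R.coeff 0 + t * E`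
  have hsplit : R.eval (t ^ e) = R.coeff 0 + t * (t ^ (e - 1) * (R.divX).eval (t ^ e)) := by
    conv_lhs => rw [← Polynomial.divX_mul_X_add R]
    rw [Polynomial.eval_add, Polynomial.eval_mul, Polynomial.eval_X, Polynomial.eval_C]
    have : t ^ e = t * t ^ (e - 1) := by
      rw [← pow_succ']; congr 1; omega
    conv_lhs => rw [show (R.divX).eval (t ^ e) * t ^ e = (R.divX).eval (t ^ e) * (t * t ^ (e - 1))
      by rw [← this]]
    ring
  have hE : t ^ (e - 1) * (R.divX).eval (t ^ e) ∈ P.toValuationSubring := by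
    refine P.toValuationSubring.mul_mem _ _ (pow_mem htmem _) ?_
    rw [Polynomial.eval_eq_sum_range]
    refine Subring.sum_mem _ fun i _ => ?_
    refine P.toValuationSubring.mul_mem _ _ ?_ (pow_mem (pow_mem htmem _) _)
    rw [Polynomial.coeff_divX]
    exact hR _
  exact regAbs_unit P ht hdl hn (hR 0) hE (by rw [hrel, hsplit])

end Main

end Fermat.Agent.S36Reg
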